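import Mathlib

/-!
# Comparison of one dimensional lattice sums and integrals
-/

set_option autoImplicit false

open MeasureTheory Filter Topology

namespace Fermat.Agent.LT.Asai

/-- `(1+u²)^{-r}` -/
noncomputable def hh (r u : ℝ) : ℝ := (1 + u ^ 2) ^ (-r)

/-- `∫ (1+u²)^{-r} du` -/
noncomputable def II (r : ℝ) : ℝ := ∫ u : ℝ, hh r u

theorem one_add_sq_pos (u : ℝ) : 0 < 1 + u ^ 2 := by positivity

theorem hh_pos (r u : ℝ) : 0 < hh r u := Real.rpow_pos_of_pos (one_add_sq_pos u) _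

theorem hh_zero (r : ℝ) : hh r 0 = 1 := by simp [hh]

theorem hh_le_inv {r : ℝ} (hr : 1 ≤ r) (u : ℝ) : hh r u ≤ (1 + u ^ 2)⁻¹ := by
  rw [hh, ← Real.rpow_neg_one]
  exact Real.rpow_le_rpow_of_exponent_le (by nlinarith [sq_nonneg u]) (by linarith)

theorem integrable_hh {r : ℝ} (hr : 1 / 2 < r) : Integrable (hh r) := by
  have h := integrable_rpow_neg_one_add_norm_sq (E := ℝ) (μ := volume) (r := 2 * r)
    (by rw [Module.finrank_self]; push_cast; linarith)
  refine h.congr (Eventually.of_forall fun x => ?_)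
  simp only [hh, Real.norm_eq_abs, sq_abs]
  congr 1
  ring

theorem II_nonneg (r : ℝ) : 0 ≤ II r := integral_nonneg fun u => (hh_pos r u).le

theorem II_le_pi {r : ℝ} (hr : 1 ≤ r) : II r ≤ Real.pi := by
  rw [← integral_univ_inv_one_add_sq]
  exact integral_mono (integrable_hh (by linarith)) integrable_inv_one_add_sq (hh_le_inv hr)

theorem hasDerivAt_hh (r u : ℝ) :
    HasDerivAt (hh r) (2 * u * (-r) * (1 + u ^ 2) ^ (-r - 1)) u := by
  unfold hh
  have h1 : HasDerivAt (fun u : ℝ => 1 + u ^ 2) (2 * u) u := by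
    have := (hasDerivAt_pow 2 u).const_add 1
    simpa using this
  have h2 := h1.rpow_const (p := -r) (Or.inl (one_add_sq_pos u).ne')
  exact h2

theorem abs_deriv_hh_le {r : ℝ} (hr1 : 1 / 2 ≤ r) (hr2 : r ≤ 2) (u : ℝ) :
    |2 * u * (-r) * (1 + u ^ 2) ^ (-r - 1)| ≤ 4 * (1 + u ^ 2)⁻¹ := by
  have h0 := one_add_sq_pos u
  rw [abs_mul, abs_of_nonneg (Real.rpow_nonneg h0.le _)]
  have h1 : |2 * u * (-r)| = 2 * r * |u| := by
    rw [abs_mul, abs_mul, abs_neg, abs_two, abs_of_nonneg (by linarith : 0 ≤ r)]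
    ring
  rw [h1]
  have h2 : |u| ≤ (1 + u ^ 2) ^ (1 / 2 : ℝ) := by
    rw [← Real.sqrt_eq_rpow]
    apply Real.le_sqrt_of_sq_le
    rw [sq_abs]
    linarith
  have h3 : |u| * (1 + u ^ 2) ^ (-r - 1) ≤ (1 + u ^ 2)⁻¹ := by
    calc |u| * (1 + u ^ 2) ^ (-r - 1) ≤ (1 + u ^ 2) ^ (1 / 2 : ℝ) * (1 + u ^ 2) ^ (-r - 1) :=
          mul_le_mul_of_nonneg_right h2 (Real.rpow_nonneg h0.le _)
      _ = (1 + u ^ 2) ^ (1 / 2 + (-r - 1)) := (Real.rpow_add h0 _ _).symm
      _ ≤ (1 + u ^ 2) ^ (-1 : ℝ) :=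
          Real.rpow_le_rpow_of_exponent_le (by nlinarith [sq_nonneg u]) (by linarith)
      _ = (1 + u ^ 2)⁻¹ := Real.rpow_neg_one _
  have h4 : 0 ≤ (1 + u ^ 2)⁻¹ := by positivity
  calc 2 * r * |u| * (1 + u ^ 2) ^ (-r - 1) = 2 * r * (|u| * (1 + u ^ 2) ^ (-r - 1)) := by ring
    _ ≤ 2 * r * (1 + u ^ 2)⁻¹ := mul_le_mul_of_nonneg_left h3 (by linarith)
    _ ≤ 4 * (1 + u ^ 2)⁻¹ := mul_le_mul_of_nonneg_right (by linarith) h4

/-- Sum over a shifted scaled lattice compared with the integral. -/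
theorem sum_hh {r : ℝ} (hr1 : 1 / 2 < r) (hr2 : r ≤ 2) {k : ℝ} (hk : 0 < k) (θ : ℝ) :
    Summable (fun n : ℤ => hh r ((n + θ) / k)) ∧
      |∑' n : ℤ, hh r ((n + θ) / k) - k * II r| ≤ 4 * Real.pi := by
  set g : ℝ → ℝ := fun x => hh r ((x + θ) / k) with hg
  set G : ℝ → ℝ := fun x => 4 / k * (1 + ((x + θ) / k) ^ 2)⁻¹ with hG
  have hgi : Integrable g :=
    ((integrable_hh hr1).comp_div hk.ne').comp_add_right θ
  have hGi : Integrable G :=
    ((integrable_inv_one_add_sq.comp_div hk.ne').comp_add_right θ).const_mul _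
  have hgint : ∫ x, g x = k * II r := by
    have h1 := integral_add_right_eq_self (μ := (volume : Measure ℝ)) (fun x => hh r (x / k)) θ
    have h2 := Measure.integral_comp_div (hh r) k
    rw [hg, h1, h2, abs_of_pos hk, smul_eq_mul, II]
  have hGint : ∫ x, G x = 4 * Real.pi := by
    have h1 := integral_add_right_eq_self (μ := (volume : Measure ℝ))
      (fun x => (1 + (x / k) ^ 2)⁻¹) θ
    have h2 := Measure.integral_comp_div (fun x : ℝ => (1 + x ^ 2)⁻¹) k
    rw [hG, integral_const_mul, h1, h2, integral_univ_inv_one_add_sq, abs_of_pos hk, smul_eq_mul]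
    field_simp
  have hgd : ∀ x, HasDerivAt g (2 * ((x + θ) / k) * (-r) * (1 + ((x + θ) / k) ^ 2) ^ (-r - 1) *
      (1 / k)) x := by
    intro x
    have h1 : HasDerivAt (fun x : ℝ => (x + θ) / k) (1 / k) x :=
      ((hasDerivAt_id x).add_const θ).div_const k
    exact (hasDerivAt_hh r ((x + θ) / k)).comp x h1
  have hGc : Continuous G := by
    apply Continuous.mul continuous_const
    apply Continuous.inv₀ (by fun_prop)
    intro x
    exact (one_add_sq_pos _).ne'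
  have hgc : Continuous g := continuous_iff_continuousAt.mpr fun x => (hgd x).continuousAt
  have hG0 : ∀ x, 0 ≤ G x := fun x => by simp only [hG]; positivity
  have hdc : Continuous fun x => 2 * ((x + θ) / k) * (-r) *
      (1 + ((x + θ) / k) ^ 2) ^ (-r - 1) * (1 / k) := by
    apply Continuous.mul _ continuous_const
    apply Continuous.mul (by fun_prop)
    exact Continuous.rpow_const (by fun_prop) fun x => Or.inl (one_add_sq_pos _).ne'
  have hdb : ∀ x, |2 * ((x + θ) / k) * (-r) * (1 + ((x + θ) / k) ^ 2) ^ (-r - 1) *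
      (1 / k)| ≤ G x := by
    intro x
    rw [abs_mul, abs_of_pos (by positivity : 0 < 1 / k)]
    have h1 := abs_deriv_hh_le hr1.le hr2 ((x + θ) / k)
    have h2 := mul_le_mul_of_nonneg_right h1 (by positivity : 0 ≤ 1 / k)
    refine h2.trans (le_of_eq ?_)
    simp only [hG]
    ring
  have hdiff : ∀ (n : ℝ) (x : ℝ), x ∈ Set.Icc n (n + 1) → |g x - g n| ≤ ∫ t in n..(n + 1), G t := by
    intro n x hx
    have h1 := intervalIntegral.integral_eq_sub_of_hasDerivAt (a := n) (b := x)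
      (fun t _ => hgd t) (hdc.intervalIntegrable _ _)
    rw [← h1, ← Real.norm_eq_abs]
    refine (intervalIntegral.norm_integral_le_of_norm_le hx.1
      (Eventually.of_forall fun t _ => by rw [Real.norm_eq_abs]; exact hdb t)
      (hGc.intervalIntegrable _ _)).trans ?_
    rw [← intervalIntegral.integral_add_adjacent_intervals (hGc.intervalIntegrable n x)
      (hGc.intervalIntegrable x (n + 1))]
    have : 0 ≤ ∫ t in x..(n + 1), G t :=
      intervalIntegral.integral_nonneg hx.2 fun t _ => hG0 t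
    linarith
  have hstep : ∀ n : ℤ, |g n - ∫ x in (0 : ℝ) + n..(0 : ℝ) + n + 1, g x| ≤
      ∫ t in (0 : ℝ) + n..(0 : ℝ) + n + 1, G t := by
    intro n
    rw [zero_add]
    have h1 : g n - ∫ x in (n : ℝ)..(n : ℝ) + 1, g x = ∫ x in (n : ℝ)..(n : ℝ) + 1, (g n - g x) := by
      rw [intervalIntegral.integral_sub (by simp) (hgc.intervalIntegrable _ _)]
      simp
    rw [h1, ← Real.norm_eq_abs]
    have h2 := intervalIntegral.norm_integral_le_of_norm_le_const (a := (n : ℝ))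
      (b := (n : ℝ) + 1) (C := ∫ t in (n : ℝ)..(n : ℝ) + 1, G t) (f := fun x => g n - g x)
      (fun x hx => by
        rw [Set.uIoc_of_le (by linarith)] at hx
        rw [norm_sub_rev, Real.norm_eq_abs]
        exact hdiff n x ⟨hx.1.le, hx.2⟩)
    simpa using h2
  have hs1 := hgi.hasSum_intervalIntegral 0
  have hs2 := hGi.hasSum_intervalIntegral 0
  rw [hgint] at hs1
  rw [hGint] at hs2
  have hsd : Summable fun n : ℤ => g n - ∫ x in (0 : ℝ) + n..(0 : ℝ) + n + 1, g x :=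
    Summable.of_norm_bounded hs2.summable fun n => by rw [Real.norm_eq_abs]; exact hstep n
  have hsg : Summable fun n : ℤ => g n := by
    have := hsd.add hs1.summable
    refine this.congr fun n => ?_
    ring
  refine ⟨hsg, ?_⟩
  have h3 : ∑' n : ℤ, g n - k * II r =
      ∑' n : ℤ, (g n - ∫ x in (0 : ℝ) + n..(0 : ℝ) + n + 1, g x) := by
    rw [hsg.tsum_sub hs1.summable, hs1.tsum_eq]
  change |∑' n : ℤ, g n - k * II r| ≤ _
  rw [h3, ← Real.norm_eq_abs]
  exact tsum_of_norm_bounded hs2 fun n => by rw [Real.norm_eq_abs]; exact hstep n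

/-- upper bound for `II r` near `1/2` -/
theorem II_half_le {s : ℝ} (h1 : 1 < s) (h2 : s ≤ 2) : (s - 1) * II (s - 1 / 2) ≤ 4 := by
  have hr : 1 / 2 < s - 1 / 2 := by linarith
  have hi := integrable_hh hr
  have hsplit : II (s - 1 / 2) = 2 * ∫ u in Set.Ioi (0 : ℝ), hh (s - 1 / 2) u := by
    rw [II]
    have := integral_comp_abs (f := hh (s - 1 / 2))
    rw [← this]
    congr 1
    ext u
    simp [hh]
  have h3 : ∫ u in Set.Ioi (0 : ℝ), hh (s - 1 / 2) u ≤ 1 + 1 / (2 * s - 2) := by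
    have hu : Set.Ioi (0 : ℝ) = Set.Ioc 0 1 ∪ Set.Ioi 1 := (Set.Ioc_union_Ioi_eq_Ioi zero_le_one).symm
    rw [hu, setIntegral_union (Set.Ioc_disjoint_Ioi le_rfl) measurableSet_Ioi hi.integrableOn
      hi.integrableOn]
    have e1 : ∫ u in Set.Ioc (0 : ℝ) 1, hh (s - 1 / 2) u ≤ 1 := by
      have e2 : ∀ u ∈ Set.Ioc (0 : ℝ) 1, hh (s - 1 / 2) u ≤ 1 := by
        intro u _
        rw [hh]
        exact Real.rpow_le_one_of_one_le_of_nonpos (by nlinarith [sq_nonneg u]) (by linarith)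
      refine (setIntegral_mono_on hi.integrableOn (by simp) measurableSet_Ioc e2).trans ?_
      simp
    have e3 : ∫ u in Set.Ioi (1 : ℝ), hh (s - 1 / 2) u ≤ 1 / (2 * s - 2) := by
      have e4 : IntegrableOn (fun u : ℝ => u ^ (-(2 * s - 1))) (Set.Ioi 1) :=
        integrableOn_Ioi_rpow_of_lt (by linarith) zero_lt_one
      have e5 : ∀ u ∈ Set.Ioi (1 : ℝ), hh (s - 1 / 2) u ≤ u ^ (-(2 * s - 1)) := by
        intro u hu
        have hu0 : (0 : ℝ) < u := lt_trans zero_lt_one hu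
        rw [hh]
        have e6 : u ^ (-(2 * s - 1)) = (u ^ 2) ^ (-(s - 1 / 2)) := by
          rw [← Real.rpow_natCast, ← Real.rpow_mul hu0.le]
          congr 1
          push_cast
          ring
        rw [e6]
        exact Real.rpow_le_rpow_of_nonpos (by positivity) (by linarith) (by linarith)
      refine (setIntegral_mono_on hi.integrableOn e4 measurableSet_Ioi e5).trans (le_of_eq ?_)
      rw [integral_Ioi_rpow_of_lt (by linarith) zero_lt_one]
      rw [Real.one_rpow]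
      rw [show -(2 * s - 1) + 1 = -(2 * s - 2) by ring, neg_div_neg_eq]
    linarith
  rw [hsplit]
  have h5 : 0 < s - 1 := by linarith
  have h6 : (s - 1) * (2 * ∫ u in Set.Ioi (0 : ℝ), hh (s - 1 / 2) u) ≤
      (s - 1) * (2 * (1 + 1 / (2 * s - 2))) := by gcongr
  refine h6.trans ?_
  have h7 : (s - 1) * (2 * (1 + 1 / (2 * s - 2))) = 2 * (s - 1) + 1 := by
    have : 2 * s - 2 ≠ 0 := by linarith
    field_simp
  rw [h7]
  linarith

theorem one_sub_rpow_neg_le {t r : ℝ} (ht : 0 ≤ t) (hr : 0 ≤ r) :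
    1 - (1 + t) ^ (-r) ≤ r * t := by
  have h1 : Real.exp (-(r * t)) ≤ (1 + t) ^ (-r) := by
    rw [Real.rpow_def_of_pos (by linarith)]
    apply Real.exp_le_exp.mpr
    have := Real.log_le_sub_one_of_pos (by linarith : 0 < 1 + t)
    nlinarith
  have h2 := Real.add_one_le_exp (-(r * t))
  linarith

/-- error term -/
noncomputable def ec (c : ℤ) : ℝ := if c = 0 then 1 else 3 / 2 * ((c : ℝ) ^ 2)⁻¹

theorem ec_nonneg (c : ℤ) : 0 ≤ ec c := by rw [ec]; split_ifs <;> positivity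

theorem summable_int_sq : Summable fun c : ℤ => ((c : ℝ) ^ 2)⁻¹ := by
  have := Real.summable_one_div_int_pow (p := 2)
  simpa using this.mpr (by norm_num)

theorem summable_ec : Summable ec := by
  have h1 : Summable fun c : ℤ => (if c = 0 then (1 : ℝ) else 0) :=
    summable_of_ne_finset_zero (s := {0}) fun c hc => by
      rw [if_neg (by simpa using hc)]
  refine Summable.of_nonneg_of_le ec_nonneg (fun c => ?_)
    (h1.add (summable_int_sq.mul_left (3 / 2)))
  rw [ec]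
  split_ifs with h
  · subst h; simp
  · simp

theorem abs_rpow_sub_hh_le {w : ℝ} (h1 : 1 < w) (h2 : w ≤ 3) (c : ℤ) :
    |(|(c : ℝ)|) ^ (-w) - hh (w / 2) c| ≤ ec c := by
  rw [ec]
  split_ifs with h
  · subst h
    rw [Int.cast_zero, abs_zero, Real.zero_rpow (by linarith), hh_zero]
    norm_num
  · have hc : (0 : ℝ) < |(c : ℝ)| := abs_pos.mpr (by exact_mod_cast h)
    have hc1 : (1 : ℝ) ≤ |(c : ℝ)| := by
      have : (1 : ℤ) ≤ |c| := Int.one_le_abs h
      exact_mod_cast this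
    have e1 : hh (w / 2) c = |(c : ℝ)| ^ (-w) * (1 + ((c : ℝ) ^ 2)⁻¹) ^ (-(w / 2)) := by
      rw [hh]
      have e2 : 1 + (c : ℝ) ^ 2 = |(c : ℝ)| ^ 2 * (1 + ((c : ℝ) ^ 2)⁻¹) := by
        rw [sq_abs]
        have : (c : ℝ) ≠ 0 := by exact_mod_cast h
        field_simp
        ring
      rw [e2, Real.mul_rpow (by positivity) (by positivity)]
      congr 1
      rw [← Real.rpow_natCast, ← Real.rpow_mul hc.le]
      congr 1
      push_cast
      ring
    rw [e1]
    have e3 : |(c : ℝ)| ^ (-w) - |(c : ℝ)| ^ (-w) * (1 + ((c : ℝ) ^ 2)⁻¹) ^ (-(w / 2)) =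
        |(c : ℝ)| ^ (-w) * (1 - (1 + ((c : ℝ) ^ 2)⁻¹) ^ (-(w / 2))) := by ring
    have e4 : |(c : ℝ)| ^ (-w) ≤ 1 := Real.rpow_le_one_of_one_le_of_nonpos hc1 (by linarith)
    have e5 : 0 ≤ |(c : ℝ)| ^ (-w) := Real.rpow_nonneg hc.le _
    have e6 : (1 + ((c : ℝ) ^ 2)⁻¹) ^ (-(w / 2)) ≤ 1 := by
      refine Real.rpow_le_one_of_one_le_of_nonpos ?_ (by linarith)
      have : (0 : ℝ) ≤ ((c : ℝ) ^ 2)⁻¹ := by positivity
      linarith
    have e7 := one_sub_rpow_neg_le (t := ((c : ℝ) ^ 2)⁻¹) (r := w / 2) (by positivity)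
      (by linarith)
    rw [e3, abs_of_nonneg (mul_nonneg e5 (by linarith))]
    have e8 : (0 : ℝ) ≤ ((c : ℝ) ^ 2)⁻¹ := by positivity
    calc |(c : ℝ)| ^ (-w) * (1 - (1 + ((c : ℝ) ^ 2)⁻¹) ^ (-(w / 2)))
        ≤ 1 * (1 - (1 + ((c : ℝ) ^ 2)⁻¹) ^ (-(w / 2))) :=
          mul_le_mul_of_nonneg_right e4 (by linarith)
      _ ≤ w / 2 * ((c : ℝ) ^ 2)⁻¹ := by rw [one_mul]; exact e7
      _ ≤ 3 / 2 * ((c : ℝ) ^ 2)⁻¹ := mul_le_mul_of_nonneg_right (by linarith) e8

theorem injective_prog {M : ℕ} (hM : M ≠ 0) (a : ℤ) : Function.Injective fun m : ℤ => a + M * m := by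
  intro m m' h
  simp only [add_right_inj] at h
  exact mul_left_cancel₀ (by exact_mod_cast hM) h

/-- The sum of `|c|^{-w}` over an arithmetic progression. -/
theorem sum_prog {M : ℕ} (hM : M ≠ 0) (a : ℤ) {w : ℝ} (h1 : 1 < w) (h2 : w ≤ 3) :
    Summable (fun m : ℤ => |((a + M * m : ℤ) : ℝ)| ^ (-w)) ∧
      |∑' m : ℤ, |((a + M * m : ℤ) : ℝ)| ^ (-w) - 1 / M * II (w / 2)| ≤
        4 * Real.pi + ∑' c : ℤ, ec c := by
  have hM0 : (0 : ℝ) < M := by exact_mod_cast Nat.pos_of_ne_zero hM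
  obtain ⟨hs, hb⟩ := sum_hh (r := w / 2) (by linarith) (by linarith)
    (k := 1 / (M : ℝ)) (by positivity) ((a : ℝ) / M)
  have heq : ∀ m : ℤ, hh (w / 2) (((m : ℝ) + a / M) / (1 / M)) = hh (w / 2) ((a + M * m : ℤ) : ℝ) := by
    intro m
    congr 1
    push_cast
    field_simp
    ring
  simp only [heq] at hs hb
  have hec : Summable fun m : ℤ => ec (a + M * m) := summable_ec.comp_injective (injective_prog hM a)
  have hec2 : ∑' m : ℤ, ec (a + M * m) ≤ ∑' c : ℤ, ec c :=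
    tsum_comp_le_tsum_of_inj summable_ec ec_nonneg (injective_prog hM a)
  have hd : Summable fun m : ℤ => |((a + M * m : ℤ) : ℝ)| ^ (-w) -
      hh (w / 2) ((a + M * m : ℤ) : ℝ) :=
    Summable.of_norm_bounded hec fun m => by
      rw [Real.norm_eq_abs]; exact abs_rpow_sub_hh_le h1 h2 _
  have hsum : Summable fun m : ℤ => |((a + M * m : ℤ) : ℝ)| ^ (-w) := by
    refine (hd.add hs).congr fun m => ?_
    ring
  refine ⟨hsum, ?_⟩
  have h3 : |∑' m : ℤ, |((a + M * m : ℤ) : ℝ)| ^ (-w) -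
      ∑' m : ℤ, hh (w / 2) ((a + M * m : ℤ) : ℝ)| ≤ ∑' c : ℤ, ec c := by
    rw [← hsum.tsum_sub hs, ← Real.norm_eq_abs]
    exact (tsum_of_norm_bounded hec.hasSum fun m => by
      rw [Real.norm_eq_abs]; exact abs_rpow_sub_hh_le h1 h2 _).trans hec2
  rw [abs_le] at h3 hb ⊢
  constructor <;> linarith [h3.1, h3.2, hb.1, hb.2]

end Fermat.Agent.LT.Asai
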