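import Mathlib
import Fermat.Agent.LT.Asai.SumInt

/-!
# Real analytic Eisenstein series: uniform asymptotics as `s → 1⁺`
-/

set_option autoImplicit false

open MeasureTheory Filter Topology UpperHalfPlane

namespace Fermat.Agent.LT.Asai

/-- `(y/|cτ+d|²)^s` -/
noncomputable def trm (s x y c d : ℝ) : ℝ := (y / ((c * x + d) ^ 2 + c ^ 2 * y ^ 2)) ^ s

theorem trm_nonneg {s x y : ℝ} (hy : 0 < y) (c d : ℝ) : 0 ≤ trm s x y c d := by
  unfold trm; positivity

theorem trm_eq_of_ne {s x y : ℝ} (hy : 0 < y) {c : ℝ} (hc : c ≠ 0) (d : ℝ) :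
    trm s x y c d = y ^ (-s) * |c| ^ (-(2 * s)) * hh s ((d + c * x) / (|c| * y)) := by
  have hc0 : 0 < |c| := abs_pos.mpr hc
  have e1 : y / ((c * x + d) ^ 2 + c ^ 2 * y ^ 2) =
      y⁻¹ * (|c| ^ 2)⁻¹ * (1 + ((d + c * x) / (|c| * y)) ^ 2)⁻¹ := by
    rw [div_pow, mul_pow, sq_abs]
    have hc2 : c ^ 2 ≠ 0 := by positivity
    have hy2 : y ≠ 0 := hy.ne'
    field_simp
    ring
  rw [trm, e1, Real.mul_rpow (by positivity) (by positivity),
    Real.mul_rpow (by positivity) (by positivity), Real.inv_rpow hy.le, ← Real.rpow_neg hy.le,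
    Real.inv_rpow (by positivity), ← Real.rpow_natCast |c| 2, ← Real.rpow_mul hc0.le,
    ← Real.rpow_neg hc0.le, Real.inv_rpow (one_add_sq_pos _).le,
    ← Real.rpow_neg (one_add_sq_pos _).le, hh]
  norm_num

theorem trm_zero_left {s x y : ℝ} (hs : s ≠ 0) (hy : 0 < y) (d : ℝ) :
    trm s x y 0 d = y ^ s * |d| ^ (-(2 * s)) := by
  rw [trm]
  simp only [zero_mul, zero_add, ne_eq, OfNat.ofNat_ne_zero, not_false_eq_true, zero_pow, add_zero]
  by_cases hd : d = 0
  · subst hd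
    simp only [ne_eq, OfNat.ofNat_ne_zero, not_false_eq_true, zero_pow, div_zero, abs_zero]
    rw [Real.zero_rpow hs, Real.zero_rpow (by
      intro h; apply hs; linarith), mul_zero]
  · have hd0 : 0 < |d| := abs_pos.mpr hd
    rw [Real.div_rpow hy.le (sq_nonneg d), div_eq_mul_inv, ← sq_abs, ← Real.rpow_natCast |d| 2,
      ← Real.rpow_mul hd0.le, ← Real.rpow_neg hd0.le]
    norm_num

/-- inner sum, `c ≠ 0` -/
theorem inner_sum {s x y : ℝ} (h1 : 1 < s) (h2 : s ≤ 2) (hy : 0 < y) {M : ℕ} (hM : M ≠ 0)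
    (b : ℤ) {c : ℝ} (hc : c ≠ 0) :
    Summable (fun n : ℤ => trm s x y c ((b + M * n : ℤ) : ℝ)) ∧
    |∑' n : ℤ, trm s x y c ((b + M * n : ℤ) : ℝ) -
      y ^ (1 - s) * (II s / M) * |c| ^ (-(2 * s - 1))| ≤
      4 * Real.pi * (y ^ (-s) * |c| ^ (-(2 * s))) := by
  have hM0 : (0 : ℝ) < M := by exact_mod_cast Nat.pos_of_ne_zero hM
  have hc0 : 0 < |c| := abs_pos.mpr hc
  obtain ⟨hs, hb⟩ := sum_hh (r := s) (by linarith) h2 (k := |c| * y / M) (by positivity)
    ((b + c * x) / M)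
  have heq : ∀ n : ℤ, trm s x y c ((b + M * n : ℤ) : ℝ) =
      y ^ (-s) * |c| ^ (-(2 * s)) * hh s ((n + (b + c * x) / M) / (|c| * y / M)) := by
    intro n
    rw [trm_eq_of_ne hy hc]
    congr 2
    push_cast
    field_simp
    ring
  simp only [heq]
  refine ⟨hs.mul_left _, ?_⟩
  rw [tsum_mul_left]
  have e1 : y ^ (1 - s) * (II s / M) * |c| ^ (-(2 * s - 1)) =
      y ^ (-s) * |c| ^ (-(2 * s)) * (|c| * y / M * II s) := by
    rw [show (1 : ℝ) - s = 1 + -s by ring, show -(2 * s - 1) = 1 + -(2 * s) by ring,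
      Real.rpow_add hy, Real.rpow_add hc0, Real.rpow_one, Real.rpow_one]
    ring
  rw [e1, ← mul_sub, abs_mul, abs_of_nonneg (by positivity : 0 ≤ y ^ (-s) * |c| ^ (-(2 * s))),
    mul_comm]
  exact mul_le_mul_of_nonneg_right hb (by positivity)

theorem rpow_le_inv_sq {s : ℝ} (h1 : 1 < s) (c : ℤ) : |(c : ℝ)| ^ (-(2 * s)) ≤ ((c : ℝ) ^ 2)⁻¹ := by
  by_cases h : c = 0
  · subst h
    rw [Int.cast_zero, abs_zero, Real.zero_rpow (by linarith)]
    norm_num
  · have hc1 : (1 : ℝ) ≤ |(c : ℝ)| := by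
      have : (1 : ℤ) ≤ |c| := Int.one_le_abs h
      exact_mod_cast this
    calc |(c : ℝ)| ^ (-(2 * s)) ≤ |(c : ℝ)| ^ (-2 : ℝ) :=
          Real.rpow_le_rpow_of_exponent_le hc1 (by linarith)
      _ = ((c : ℝ) ^ 2)⁻¹ := by
          rw [Real.rpow_neg (abs_nonneg _), ← sq_abs]
          norm_num

theorem inner_zero {s x y : ℝ} (h1 : 1 < s) (hy : 0 < y) {M : ℕ} (hM : M ≠ 0) (b : ℤ) :
    Summable (fun n : ℤ => trm s x y 0 ((b + M * n : ℤ) : ℝ)) ∧
    ∑' n : ℤ, trm s x y 0 ((b + M * n : ℤ) : ℝ) ≤ y ^ s * ∑' c : ℤ, ((c : ℝ) ^ 2)⁻¹ := by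
  have heq : ∀ n : ℤ, trm s x y 0 ((b + M * n : ℤ) : ℝ) =
      y ^ s * |((b + M * n : ℤ) : ℝ)| ^ (-(2 * s)) := fun n => trm_zero_left (by linarith) hy _
  have hsum : Summable fun c : ℤ => |(c : ℝ)| ^ (-(2 * s)) :=
    Summable.of_nonneg_of_le (fun c => by positivity) (fun c => rpow_le_inv_sq h1 c)
      summable_int_sq
  have hsum' : Summable fun n : ℤ => |((b + M * n : ℤ) : ℝ)| ^ (-(2 * s)) :=
    hsum.comp_injective (injective_prog hM b)
  simp only [heq]
  refine ⟨hsum'.mul_left _, ?_⟩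
  rw [tsum_mul_left]
  refine mul_le_mul_of_nonneg_left ?_ (by positivity)
  refine (tsum_comp_le_tsum_of_inj hsum (fun c => by positivity) (injective_prog hM b)).trans ?_
  exact Summable.tsum_le_tsum (fun c => rpow_le_inv_sq h1 c) hsum summable_int_sq

/-- the main term -/
noncomputable def JJ (M : ℕ) (s : ℝ) : ℝ := II s * II (s - 1 / 2) / M ^ 2

/-- Eisenstein sum over a class modulo `M` -/
noncomputable def GG (M : ℕ) (s x y : ℝ) (a b : ℤ) : ℝ :=
  ∑' p : ℤ × ℤ, trm s x y ((a + M * p.1 : ℤ) : ℝ) ((b + M * p.2 : ℤ) : ℝ)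

/-- absolute constant -/
noncomputable def CC : ℝ := ∑' c : ℤ, ((c : ℝ) ^ 2)⁻¹

theorem CC_nonneg : 0 ≤ CC := tsum_nonneg fun c => by positivity

theorem summable_GG {s x y : ℝ} (h1 : 1 < s) (h2 : s ≤ 2) (hy : 0 < y) {M : ℕ} (hM : M ≠ 0)
    (a b : ℤ) : Summable fun p : ℤ × ℤ =>
      trm s x y ((a + M * p.1 : ℤ) : ℝ) ((b + M * p.2 : ℤ) : ℝ) := by
  rw [summable_prod_of_nonneg (fun p => trm_nonneg hy _ _)]
  have hin : ∀ m : ℤ, Summable (fun n : ℤ =>
      trm s x y ((a + M * m : ℤ) : ℝ) ((b + M * n : ℤ) : ℝ)) := by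
    intro m
    by_cases hc : ((a + M * m : ℤ) : ℝ) = 0
    · rw [hc]; exact (inner_zero h1 hy hM b).1
    · exact (inner_sum h1 h2 hy hM b hc).1
  refine ⟨hin, ?_⟩
  have hsum : Summable fun c : ℤ => |(c : ℝ)| ^ (-(2 * s)) :=
    Summable.of_nonneg_of_le (fun c => by positivity) (fun c => rpow_le_inv_sq h1 c)
      summable_int_sq
  have hA := (sum_prog hM a (w := 2 * s - 1) (by linarith) (by linarith)).1
  have hB : Summable fun m : ℤ => |((a + M * m : ℤ) : ℝ)| ^ (-(2 * s)) :=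
    hsum.comp_injective (injective_prog hM a)
  have hD : Summable fun m : ℤ => (if a + M * m = 0 then y ^ s * CC else 0) := by
    have h0 : Summable fun c : ℤ => (if c = 0 then y ^ s * CC else 0) :=
      summable_of_ne_finset_zero (s := {0}) fun c hc => by
        rw [if_neg (by simpa using hc)]
    exact h0.comp_injective (injective_prog hM a)
  refine Summable.of_nonneg_of_le (fun m => tsum_nonneg fun n => trm_nonneg hy _ _)
    (fun m => ?_) (((hA.mul_left (y ^ (1 - s) * (II s / M))).add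
      (hB.mul_left (4 * Real.pi * y ^ (-s)))).add hD)
  by_cases hc : (a + M * m : ℤ) = 0
  · have h3 := (inner_zero (x := x) h1 hy hM b).2
    simp only
    rw [if_pos hc, hc, Int.cast_zero]
    refine h3.trans ?_
    have h4 : 0 ≤ y ^ (1 - s) * (II s / M) * |(0 : ℝ)| ^ (-(2 * s - 1)) +
        4 * Real.pi * y ^ (-s) * |(0 : ℝ)| ^ (-(2 * s)) := by
      have := II_nonneg s
      positivity
    have h5 : y ^ s * ∑' c : ℤ, ((c : ℝ) ^ 2)⁻¹ = y ^ s * CC := rfl
    linarith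
  · have hc' : ((a + M * m : ℤ) : ℝ) ≠ 0 := by exact_mod_cast hc
    have h3 := (abs_le.mp (inner_sum (x := x) h1 h2 hy hM b hc').2).2
    simp only
    rw [if_neg hc]
    linarith

theorem abs_rpow_sub_one_le {s y : ℝ} (h1 : 1 < s) (h2 : s ≤ 2) (hy : 1 / 2 ≤ y) :
    |y ^ (1 - s) - 1| ≤ (s - 1) * (4 * y) := by
  have hy0 : 0 < y := by linarith
  rw [Real.rpow_def_of_pos hy0]
  set t := Real.log y * (1 - s) with ht
  have hlog1 : Real.log y ≤ y := by
    have := Real.log_le_sub_one_of_pos hy0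
    linarith
  have hlog2 : -(2 * y) ≤ Real.log y := by
    have h3 := Real.one_sub_inv_le_log_of_pos hy0
    have h4 : y⁻¹ ≤ 2 := by
      rw [inv_le_comm₀ hy0 (by norm_num)]
      linarith
    linarith
  have hexp : ∀ t : ℝ, |Real.exp t - 1| ≤ |t| * max 1 (Real.exp t) := by
    intro t
    rcases le_total 0 t with h | h
    · have e1 : 1 - Real.exp (-t) ≤ t := by have := Real.add_one_le_exp (-t); linarith
      have e2 : 1 ≤ Real.exp t := Real.one_le_exp h
      rw [abs_of_nonneg (by linarith), abs_of_nonneg h, max_eq_right e2]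
      have e3 : Real.exp t - 1 = (1 - Real.exp (-t)) * Real.exp t := by
        rw [sub_mul, ← Real.exp_add]; simp
      rw [e3]
      exact mul_le_mul_of_nonneg_right e1 (Real.exp_pos _).le
    · have e1 : Real.exp t ≤ 1 := Real.exp_le_one_iff.mpr h
      rw [abs_of_nonpos (by linarith), abs_of_nonpos h, max_eq_left e1]
      have := Real.add_one_le_exp t
      linarith
  have h5 := hexp t
  have h6 : max 1 (Real.exp t) ≤ 2 := by
    apply max_le (by norm_num)
    have : Real.exp t = y ^ (1 - s) := by rw [Real.rpow_def_of_pos hy0]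
    rw [this]
    calc y ^ (1 - s) ≤ (1 / 2 : ℝ) ^ (1 - s) :=
          Real.rpow_le_rpow_of_nonpos (by norm_num) hy (by linarith)
      _ ≤ (1 / 2 : ℝ) ^ (-1 : ℝ) :=
          Real.rpow_le_rpow_of_exponent_ge (by norm_num) (by norm_num) (by linarith)
      _ = 2 := by rw [Real.rpow_neg_one]; norm_num
  have h7 : |t| ≤ (s - 1) * (2 * y) := by
    rw [ht, abs_mul, abs_of_nonpos (by linarith : 1 - s ≤ 0)]
    have h8 : |Real.log y| ≤ 2 * y := abs_le.mpr ⟨hlog2, by linarith⟩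
    have h9 := mul_le_mul_of_nonneg_right h8 (by linarith : 0 ≤ -(1 - s))
    linarith
  calc |Real.exp t - 1| ≤ |t| * max 1 (Real.exp t) := h5
    _ ≤ ((s - 1) * (2 * y)) * 2 := mul_le_mul h7 h6 (by positivity) (by
        have : 0 ≤ s - 1 := by linarith
        positivity)
    _ = (s - 1) * (4 * y) := by ring

theorem rpow_le_four_sq {s y : ℝ} (h1 : 1 < s) (h2 : s ≤ 2) (hy : 1 / 2 ≤ y) :
    y ^ s ≤ 4 * y ^ 2 := by
  rcases le_total 1 y with h | h
  · calc y ^ s ≤ y ^ (2 : ℝ) := Real.rpow_le_rpow_of_exponent_le h h2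
      _ = y ^ 2 := by norm_num
      _ ≤ 4 * y ^ 2 := by nlinarith [sq_nonneg y]
  · calc y ^ s ≤ 1 := Real.rpow_le_one (by linarith) h (by linarith)
      _ ≤ 4 * y ^ 2 := by nlinarith

/-- **Uniform asymptotics.** -/
theorem GG_asymp {M : ℕ} (hM : M ≠ 0) : ∃ C : ℝ, 0 ≤ C ∧ ∀ s x y : ℝ, 1 < s → s ≤ 2 → 1 / 2 ≤ y →
    ∀ a b : ℤ, |GG M s x y a b - JJ M s| ≤ C * y ^ 2 := by
  have hM0 : (0 : ℝ) < M := by exact_mod_cast Nat.pos_of_ne_zero hM
  have hM1 : (1 : ℝ) ≤ M := by exact_mod_cast Nat.one_le_iff_ne_zero.mpr hM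
  set E := 4 * Real.pi + ∑' c : ℤ, ec c with hE
  have hE0 : 0 ≤ E := by
    have : 0 ≤ ∑' c : ℤ, ec c := tsum_nonneg ec_nonneg
    positivity
  have hpi := Real.pi_pos
  refine ⟨16 * Real.pi * CC * 4 + 4 * CC + 2 * Real.pi * E * 4 + 32 * Real.pi, by
    have := CC_nonneg; positivity, fun s x y h1 h2 hy a b => ?_⟩
  have hy0 : 0 < y := by linarith
  have hy2 : 1 ≤ 4 * y ^ 2 := by nlinarith
  -- step 1 : iterate
  have hsumm := summable_GG (x := x) h1 h2 hy0 hM a b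
  have hin : ∀ m : ℤ, Summable (fun n : ℤ =>
      trm s x y ((a + M * m : ℤ) : ℝ) ((b + M * n : ℤ) : ℝ)) := by
    intro m
    by_cases hc : ((a + M * m : ℤ) : ℝ) = 0
    · rw [hc]; exact (inner_zero h1 hy0 hM b).1
    · exact (inner_sum h1 h2 hy0 hM b hc).1
  have hG : GG M s x y a b = ∑' m : ℤ, ∑' n : ℤ,
      trm s x y ((a + M * m : ℤ) : ℝ) ((b + M * n : ℤ) : ℝ) := hsumm.tsum_prod' hin
  have hA := sum_prog hM a (w := 2 * s - 1) (by linarith) (by linarith)
  have hsum : Summable fun c : ℤ => |(c : ℝ)| ^ (-(2 * s)) :=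
    Summable.of_nonneg_of_le (fun c => by positivity) (fun c => rpow_le_inv_sq h1 c)
      summable_int_sq
  have hB : Summable fun m : ℤ => |((a + M * m : ℤ) : ℝ)| ^ (-(2 * s)) :=
    hsum.comp_injective (injective_prog hM a)
  have hBle : ∑' m : ℤ, |((a + M * m : ℤ) : ℝ)| ^ (-(2 * s)) ≤ CC :=
    (tsum_comp_le_tsum_of_inj hsum (fun c => by positivity) (injective_prog hM a)).trans
      (Summable.tsum_le_tsum (fun c => rpow_le_inv_sq h1 c) hsum summable_int_sq)
  have h0 : Summable fun c : ℤ => (if c = 0 then y ^ s * CC else 0) :=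
    summable_of_ne_finset_zero (s := {0}) fun c hc => by
      rw [if_neg (by simpa using hc)]
  have hD : Summable fun m : ℤ => (if a + M * m = 0 then y ^ s * CC else 0) :=
    h0.comp_injective (injective_prog hM a)
  have hDle : ∑' m : ℤ, (if a + M * m = 0 then y ^ s * CC else 0) ≤ y ^ s * CC := by
    have h3 := tsum_comp_le_tsum_of_inj h0 (fun c => by
      have := CC_nonneg
      split_ifs <;> positivity) (injective_prog hM a)
    refine h3.trans (le_of_eq ?_)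
    exact tsum_ite_eq 0 _
  have hS1 : Summable fun m : ℤ => ∑' n : ℤ,
      trm s x y ((a + M * m : ℤ) : ℝ) ((b + M * n : ℤ) : ℝ) :=
    ((summable_prod_of_nonneg (fun p => trm_nonneg hy0 _ _)).mp hsumm).2
  have hS2 : Summable fun m : ℤ => y ^ (1 - s) * (II s / M) *
      |((a + M * m : ℤ) : ℝ)| ^ (-(2 * s - 1)) := hA.1.mul_left _
  have hys : y ^ (-s) ≤ 4 := by
    calc y ^ (-s) ≤ (1 / 2 : ℝ) ^ (-s) :=
          Real.rpow_le_rpow_of_nonpos (by norm_num) hy (by linarith)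
      _ ≤ (1 / 2 : ℝ) ^ (-2 : ℝ) :=
          Real.rpow_le_rpow_of_exponent_ge (by norm_num) (by norm_num) (by linarith)
      _ = 4 := by rw [Real.rpow_neg (by norm_num)]; norm_num
  have hterm : ∀ m : ℤ, |∑' n : ℤ, trm s x y ((a + M * m : ℤ) : ℝ) ((b + M * n : ℤ) : ℝ) -
      y ^ (1 - s) * (II s / M) * |((a + M * m : ℤ) : ℝ)| ^ (-(2 * s - 1))| ≤
      16 * Real.pi * |((a + M * m : ℤ) : ℝ)| ^ (-(2 * s)) +
        (if a + M * m = 0 then y ^ s * CC else 0) := by
    intro m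
    by_cases hc : (a + M * m : ℤ) = 0
    · rw [if_pos hc, hc, Int.cast_zero, abs_zero, Real.zero_rpow (by linarith),
        Real.zero_rpow (by linarith), mul_zero, mul_zero, sub_zero, zero_add,
        abs_of_nonneg (tsum_nonneg fun n => trm_nonneg hy0 _ _)]
      exact (inner_zero (x := x) h1 hy0 hM b).2
    · have hc' : ((a + M * m : ℤ) : ℝ) ≠ 0 := by exact_mod_cast hc
      rw [if_neg hc, add_zero]
      refine (inner_sum (x := x) h1 h2 hy0 hM b hc').2.trans ?_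
      have h5 : 0 ≤ |((a + M * m : ℤ) : ℝ)| ^ (-(2 * s)) := by positivity
      have h6 := mul_le_mul_of_nonneg_right hys h5
      nlinarith
  have hmain : |GG M s x y a b - y ^ (1 - s) * (II s / M) *
      ∑' m : ℤ, |((a + M * m : ℤ) : ℝ)| ^ (-(2 * s - 1))| ≤ 16 * Real.pi * CC + y ^ s * CC := by
    rw [hG, ← tsum_mul_left, ← hS1.tsum_sub hS2, ← Real.norm_eq_abs]
    refine (tsum_of_norm_bounded ((hB.mul_left (16 * Real.pi)).add hD).hasSum fun m => by
      rw [Real.norm_eq_abs]; exact hterm m).trans ?_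
    rw [(hB.mul_left (16 * Real.pi)).tsum_add hD, tsum_mul_left]
    have : 16 * Real.pi * ∑' m : ℤ, |((a + M * m : ℤ) : ℝ)| ^ (-(2 * s)) ≤ 16 * Real.pi * CC :=
      mul_le_mul_of_nonneg_left hBle (by positivity)
    linarith
  -- step 2 : replace the sum over c
  have hII := II_le_pi h1.le
  have hII0 := II_nonneg s
  have hy1 : y ^ (1 - s) ≤ 2 := by
    calc y ^ (1 - s) ≤ (1 / 2 : ℝ) ^ (1 - s) :=
          Real.rpow_le_rpow_of_nonpos (by norm_num) hy (by linarith)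
      _ ≤ (1 / 2 : ℝ) ^ (-1 : ℝ) :=
          Real.rpow_le_rpow_of_exponent_ge (by norm_num) (by norm_num) (by linarith)
      _ = 2 := by rw [Real.rpow_neg_one]; norm_num
  have hy10 : 0 ≤ y ^ (1 - s) := by positivity
  have hIM : II s / M ≤ Real.pi := (div_le_self hII0 hM1).trans hII
  have hIM0 : 0 ≤ II s / M := by positivity
  have hstep2 : |y ^ (1 - s) * (II s / M) *
      ∑' m : ℤ, |((a + M * m : ℤ) : ℝ)| ^ (-(2 * s - 1)) - y ^ (1 - s) * JJ M s| ≤
      2 * Real.pi * E := by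
    have e1 : y ^ (1 - s) * JJ M s = y ^ (1 - s) * (II s / M) * (1 / M * II ((2 * s - 1) / 2)) := by
      rw [JJ, show (2 * s - 1) / 2 = s - 1 / 2 by ring]
      field_simp
    rw [e1, ← mul_sub, abs_mul, abs_of_nonneg (mul_nonneg hy10 hIM0)]
    have h6 : y ^ (1 - s) * (II s / M) ≤ 2 * Real.pi :=
      mul_le_mul hy1 hIM hIM0 (by norm_num)
    exact mul_le_mul h6 hA.2 (abs_nonneg _) (by positivity)
  -- step 3
  have hJ : (s - 1) * JJ M s ≤ 4 * Real.pi := by
    have h6 := II_half_le h1 h2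
    have h7 : (s - 1) * JJ M s = (II s / M ^ 2) * ((s - 1) * II (s - 1 / 2)) := by
      rw [JJ]; ring
    have h8 : II s / M ^ 2 ≤ Real.pi := (div_le_self hII0 (one_le_pow₀ hM1)).trans hII
    have h9 : 0 ≤ (s - 1) * II (s - 1 / 2) := mul_nonneg (by linarith) (II_nonneg _)
    rw [h7]
    calc II s / M ^ 2 * ((s - 1) * II (s - 1 / 2)) ≤ Real.pi * 4 :=
          mul_le_mul h8 h6 h9 hpi.le
      _ = 4 * Real.pi := by ring
  have hJ0 : 0 ≤ JJ M s := by
    have := II_nonneg (s - 1 / 2)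
    rw [JJ]; positivity
  have hstep3 : |y ^ (1 - s) * JJ M s - JJ M s| ≤ 16 * Real.pi * y := by
    have e1 : y ^ (1 - s) * JJ M s - JJ M s = (y ^ (1 - s) - 1) * JJ M s := by ring
    rw [e1, abs_mul, abs_of_nonneg hJ0]
    have h6 := mul_le_mul_of_nonneg_right (abs_rpow_sub_one_le h1 h2 hy) hJ0
    refine h6.trans ?_
    nlinarith
  have hyy : y ≤ 2 * y ^ 2 := by nlinarith
  have hys4 := rpow_le_four_sq h1 h2 hy
  have hCC := CC_nonneg
  have t1 : |GG M s x y a b - JJ M s| ≤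
      (16 * Real.pi * CC + y ^ s * CC) + 2 * Real.pi * E + 16 * Real.pi * y := by
    rw [abs_le] at hmain hstep2 hstep3 ⊢
    constructor <;> linarith [hmain.1, hmain.2, hstep2.1, hstep2.2, hstep3.1, hstep3.2]
  refine t1.trans ?_
  have t2 : 16 * Real.pi * CC ≤ 16 * Real.pi * CC * (4 * y ^ 2) :=
    le_mul_of_one_le_right (by positivity) hy2
  have t3 : y ^ s * CC ≤ 4 * y ^ 2 * CC := mul_le_mul_of_nonneg_right hys4 hCC
  have t4 : 2 * Real.pi * E ≤ 2 * Real.pi * E * (4 * y ^ 2) :=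
    le_mul_of_one_le_right (by positivity) hy2
  have t5 : 16 * Real.pi * y ≤ 16 * Real.pi * (2 * y ^ 2) :=
    mul_le_mul_of_nonneg_left hyy (by positivity)
  linarith

end Fermat.Agent.LT.Asai
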