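import Mathlib
import Fermat.Agent.LT.Asai.EisEst

/-!
# Primitive Eisenstein sums
-/

set_option autoImplicit false

open MeasureTheory Filter Topology UpperHalfPlane Matrix.SpecialLinearGroup
open scoped MatrixGroups

namespace Fermat.Agent.LT.Asai

theorem trm_smul {s x y : ℝ} (hs : s ≠ 0) (hy : 0 < y) (g : ℕ) (c d : ℝ) :
    trm s x y (g * c) (g * d) = (g : ℝ) ^ (-(2 * s)) * trm s x y c d := by
  rcases Nat.eq_zero_or_pos g with hg | hg
  · subst hg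
    have h1 : trm s x y ((0 : ℕ) * c) ((0 : ℕ) * d) = 0 := by
      rw [trm]
      simp [Real.zero_rpow hs]
    rw [h1, Nat.cast_zero, Real.zero_rpow (by intro h; apply hs; linarith), zero_mul]
  · have hg0 : (0 : ℝ) < g := by exact_mod_cast hg
    rw [trm, trm]
    have e1 : y / (((g : ℝ) * c * x + g * d) ^ 2 + (g * c) ^ 2 * y ^ 2) =
        ((g : ℝ) ^ 2)⁻¹ * (y / ((c * x + d) ^ 2 + c ^ 2 * y ^ 2)) := by
      rw [show ((g : ℝ) * c * x + g * d) ^ 2 + (g * c) ^ 2 * y ^ 2 =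
        (g : ℝ) ^ 2 * ((c * x + d) ^ 2 + c ^ 2 * y ^ 2) by ring]
      rw [div_eq_mul_inv, mul_inv, div_eq_mul_inv]
      ring
    rw [e1, Real.mul_rpow (by positivity) (by positivity), Real.inv_rpow (by positivity),
      ← Real.rpow_natCast, ← Real.rpow_mul hg0.le, ← Real.rpow_neg hg0.le]
    norm_num

/-- the term attached to `τ` and an integral row -/
noncomputable def tt (s : ℝ) (τ : ℍ) (p : ℤ × ℤ) : ℝ := trm s τ.re τ.im p.1 p.2

theorem tt_nonneg (s : ℝ) (τ : ℍ) (p : ℤ × ℤ) : 0 ≤ tt s τ p := trm_nonneg τ.im_pos _ _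

theorem normSq_denom (c d : ℝ) (τ : ℍ) :
    Complex.normSq ((c : ℂ) * τ + d) = (c * τ.re + d) ^ 2 + c ^ 2 * τ.im ^ 2 := by
  rw [Complex.normSq_apply]
  simp
  ring

theorem im_smul' (g : SL(2, ℤ)) (τ : ℍ) :
    (g • τ).im = τ.im / (((g 1 0 : ℤ) * τ.re + (g 1 1 : ℤ)) ^ 2 + (g 1 0 : ℤ) ^ 2 * τ.im ^ 2) := by
  rw [ModularGroup.im_smul_eq_div_normSq, ← normSq_denom]
  congr 1

theorem tt_row (s : ℝ) (τ : ℍ) (g : SL(2, ℤ)) : tt s τ (g 1 0, g 1 1) = (g • τ).im ^ s := by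
  rw [im_smul', tt, trm]

/-- transformation of the terms under `SL₂(ℤ)` -/
theorem tt_smul (s : ℝ) (τ : ℍ) (g : SL(2, ℤ)) (p : ℤ × ℤ) :
    tt s (g • τ) p = tt s τ (p.1 * g 0 0 + p.2 * g 1 0, p.1 * g 0 1 + p.2 * g 1 1) := by
  have h3 : (((g 1 0 : ℤ) : ℂ) * τ + ((g 1 1 : ℤ) : ℂ)) ≠ 0 := by
    intro h0
    have h5 : Complex.normSq (((g 1 0 : ℤ) : ℝ) * (τ : ℂ) + (((g 1 1 : ℤ) : ℝ) : ℂ)) = 0 := by
      rw [Complex.normSq_eq_zero]
      push_cast
      exact h0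
    have h6 := (g • τ).im_pos
    rw [im_smul', ← normSq_denom, h5, div_zero] at h6
    exact lt_irrefl _ h6
  have h1 : (0 : ℝ) < Complex.normSq (((g 1 0 : ℤ) : ℂ) * τ + ((g 1 1 : ℤ) : ℂ)) :=
    Complex.normSq_pos.mpr h3
  have key : ∀ c d : ℝ, (g • τ).im / ((c * (g • τ).re + d) ^ 2 + c ^ 2 * (g • τ).im ^ 2) =
      τ.im / (((c * (g 0 0 : ℤ) + d * (g 1 0 : ℤ)) * τ.re + (c * (g 0 1 : ℤ) + d * (g 1 1 : ℤ))) ^ 2 +
        (c * (g 0 0 : ℤ) + d * (g 1 0 : ℤ)) ^ 2 * τ.im ^ 2) := by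
    intro c d
    rw [← normSq_denom, ← normSq_denom]
    have h2 : (c : ℂ) * ((g • τ : ℍ) : ℂ) + d =
        (((c * (g 0 0 : ℤ) + d * (g 1 0 : ℤ) : ℝ) : ℂ) * τ +
          ((c * (g 0 1 : ℤ) + d * (g 1 1 : ℤ) : ℝ) : ℂ)) /
          (((g 1 0 : ℤ) : ℂ) * τ + ((g 1 1 : ℤ) : ℂ)) := by
      have h4 : ((g • τ : ℍ) : ℂ) = (((g 0 0 : ℤ) : ℂ) * τ + ((g 0 1 : ℤ) : ℂ)) /
          (((g 1 0 : ℤ) : ℂ) * τ + ((g 1 1 : ℤ) : ℂ)) := by
        rw [UpperHalfPlane.specialLinearGroup_apply]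
        simp
      rw [h4, eq_div_iff h3, add_mul, mul_assoc, div_mul_cancel₀ _ h3]
      push_cast
      ring
    rw [h2, Complex.normSq_div, im_smul', ← normSq_denom]
    push_cast
    rw [div_div_div_cancel_right₀ (by exact h1.ne')]
  rw [tt, tt, trm, trm, key]
  push_cast
  rfl

/-- `GG` along an orbit -/
theorem GG_smul (M : ℕ) (s : ℝ) (τ : ℍ) (g : SL(2, ℤ)) (a b : ℤ) :
    GG M s (g • τ).re (g • τ).im a b =
      GG M s τ.re τ.im (a * g 0 0 + b * g 1 0) (a * g 0 1 + b * g 1 1) := by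
  unfold GG
  have hdet : g 0 0 * g 1 1 - g 0 1 * g 1 0 = 1 := by
    have := g.2; rw [Matrix.det_fin_two] at this; exact this
  let e : ℤ × ℤ ≃ ℤ × ℤ :=
    { toFun := fun p => (p.1 * g 0 0 + p.2 * g 1 0, p.1 * g 0 1 + p.2 * g 1 1)
      invFun := fun p => (p.1 * g 1 1 - p.2 * g 1 0, -p.1 * g 0 1 + p.2 * g 0 0)
      left_inv := fun p => by
        ext
        · simp only; linear_combination (p.1) * hdet
        · simp only; linear_combination (p.2) * hdet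
      right_inv := fun p => by
        ext
        · simp only; linear_combination (p.1) * hdet
        · simp only; linear_combination (p.2) * hdet }
  rw [← e.tsum_eq (fun p : ℤ × ℤ => trm s τ.re τ.im
    ((a * g 0 0 + b * g 1 0 + M * p.1 : ℤ) : ℝ) ((a * g 0 1 + b * g 1 1 + M * p.2 : ℤ) : ℝ))]
  refine tsum_congr fun p => ?_
  have h := tt_smul s τ g (a + M * p.1, b + M * p.2)
  simp only [tt] at h
  rw [h]
  congr 1
  · simp only [e, Equiv.coe_fn_mk]; push_cast; ring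
  · simp only [e, Equiv.coe_fn_mk]; push_cast; ring

theorem GG_asymp_orbit {M : ℕ} (hM : M ≠ 0) : ∃ C : ℝ, 0 ≤ C ∧ ∀ (s : ℝ) (τ : ℍ) (g : SL(2, ℤ)),
    1 < s → s ≤ 2 → 1 / 2 ≤ (g • τ).im →
    ∀ a b : ℤ, |GG M s τ.re τ.im a b - JJ M s| ≤ C * (g • τ).im ^ 2 := by
  obtain ⟨C, hC0, hC⟩ := GG_asymp hM
  refine ⟨C, hC0, fun s τ g h1 h2 hy a b => ?_⟩
  have hdet : g 0 0 * g 1 1 - g 0 1 * g 1 0 = 1 := by
    have := g.2; rw [Matrix.det_fin_two] at this; exact this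
  have h3 := hC s (g • τ).re (g • τ).im h1 h2 hy (a * g 1 1 - b * g 1 0)
    (-a * g 0 1 + b * g 0 0)
  rw [GG_smul] at h3
  have e1 : (a * g 1 1 - b * g 1 0) * g 0 0 + (-a * g 0 1 + b * g 0 0) * g 1 0 = a := by
    linear_combination a * hdet
  have e2 : (a * g 1 1 - b * g 1 0) * g 0 1 + (-a * g 0 1 + b * g 0 0) * g 1 1 = b := by
    linear_combination b * hdet
  rwa [e1, e2] at h3

/-- the set of primitive rows `≡ (0,1)` modulo `M` -/
def PR (M : ℕ) : Set (ℤ × ℤ) := {p | Int.gcd p.1 p.2 = 1 ∧ (M : ℤ) ∣ p.1 ∧ (M : ℤ) ∣ p.2 - 1}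

open Classical in
/-- primitive Eisenstein sum -/
noncomputable def EE (M : ℕ) (s : ℝ) (τ : ℍ) : ℝ :=
  ∑' p : ℤ × ℤ, if p ∈ PR M then tt s τ p else 0

open Classical in
/-- The Möbius sum. -/
noncomputable def ZP (M : ℕ) (s : ℝ) : ℝ :=
  ∑' g : ℕ, if Nat.Coprime g M then (ArithmeticFunction.moebius g : ℝ) * (g : ℝ) ^ (-(2 * s)) else 0

theorem summable_natsq : Summable fun g : ℕ => ((g : ℝ) ^ 2)⁻¹ := by
  simp

theorem nat_rpow_le {s : ℝ} (h1 : 1 < s) (g : ℕ) : (g : ℝ) ^ (-(2 * s)) ≤ ((g : ℝ) ^ 2)⁻¹ := by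
  rcases Nat.eq_zero_or_pos g with hg | hg
  · subst hg
    rw [Nat.cast_zero, Real.zero_rpow (by linarith)]
    norm_num
  · have hc1 : (1 : ℝ) ≤ g := by exact_mod_cast hg
    calc (g : ℝ) ^ (-(2 * s)) ≤ (g : ℝ) ^ (-2 : ℝ) :=
          Real.rpow_le_rpow_of_exponent_le hc1 (by linarith)
      _ = ((g : ℝ) ^ 2)⁻¹ := by
          rw [Real.rpow_neg (by linarith)]
          norm_num

theorem abs_moebius_le (g : ℕ) : |(ArithmeticFunction.moebius g : ℝ)| ≤ 1 := by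
  have h : |ArithmeticFunction.moebius g| ≤ 1 := ArithmeticFunction.abs_moebius_le_one
  exact_mod_cast h

open Classical in
/-- sum over rows divisible by `g` -/
theorem sum_div {M : ℕ} (hM : 1 < M) {s : ℝ} (h1 : 1 < s) (h2 : s ≤ 2) (τ : ℍ) {g : ℕ}
    (hg : 0 < g) (hgM : Nat.Coprime g M) : ∃ g' : ℤ,
    HasSum (fun p : ℤ × ℤ => if ((M : ℤ) ∣ p.1 ∧ (M : ℤ) ∣ p.2 - 1) ∧ (g : ℤ) ∣ p.1 ∧ (g : ℤ) ∣ p.2
      then tt s τ p else 0) ((g : ℝ) ^ (-(2 * s)) * GG M s τ.re τ.im 0 g') := by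
  have hM0 : M ≠ 0 := by omega
  have hgM' : IsCoprime (g : ℤ) (M : ℤ) := Nat.isCoprime_iff_coprime.mpr hgM
  obtain ⟨g', v, hgv⟩ := hgM'
  refine ⟨g', ?_⟩
  have hinj : Function.Injective fun p : ℤ × ℤ =>
      ((g : ℤ) * (0 + M * p.1), (g : ℤ) * (g' + M * p.2)) := by
    intro p p' h
    simp only [Prod.mk.injEq] at h
    have hg0 : (g : ℤ) ≠ 0 := by exact_mod_cast hg.ne'
    have hM0' : (M : ℤ) ≠ 0 := by exact_mod_cast hM0
    ext
    · have := mul_left_cancel₀ hg0 h.1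
      rw [zero_add, zero_add] at this
      exact mul_left_cancel₀ hM0' this
    · have := mul_left_cancel₀ hg0 h.2
      exact mul_left_cancel₀ hM0' (add_left_cancel this)
  rw [← hinj.hasSum_iff]
  · have hS := (summable_GG (x := τ.re) h1 h2 τ.im_pos hM0 0 g').hasSum.mul_left
      ((g : ℝ) ^ (-(2 * s)))
    refine hS.congr_fun fun p => ?_ |> fun h => h
    simp only [Function.comp_apply]
    rw [if_pos]
    · have := trm_smul (s := s) (x := τ.re) (by linarith) τ.im_pos g ((0 + M * p.1 : ℤ) : ℝ)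
        ((g' + M * p.2 : ℤ) : ℝ)
      rw [← this, tt]
      push_cast
      rfl
    · refine ⟨⟨⟨g * p.1, by ring⟩, ⟨g * p.2 - v, ?_⟩⟩, ⟨0 + M * p.1, rfl⟩, ⟨g' + M * p.2, rfl⟩⟩
      linear_combination hgv
  · intro p hp
    rw [if_neg]
    rintro ⟨⟨⟨u1, hu1⟩, ⟨u2, hu2⟩⟩, ⟨w1, hw1⟩, ⟨w2, hw2⟩⟩
    apply hp
    have hcop : IsCoprime (M : ℤ) (g : ℤ) := ⟨v, g', by linear_combination hgv⟩
    have hd1 : (M : ℤ) ∣ w1 := by
      refine hcop.dvd_of_dvd_mul_left ?_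
      rw [← hw1]; exact ⟨u1, hu1⟩
    have hd2 : (M : ℤ) ∣ w2 - g' := by
      refine hcop.dvd_of_dvd_mul_left ?_
      exact ⟨u2 + v, by linear_combination (-1 : ℤ) * hw2 + hu2 - hgv⟩
    obtain ⟨t1, ht1⟩ := hd1
    obtain ⟨t2, ht2⟩ := hd2
    refine ⟨(t1, t2), ?_⟩
    simp only
    ext
    · simp only; rw [hw1, ht1]; ring
    · simp only; rw [hw2]; linear_combination (-(g : ℤ)) * ht2

theorem sum_moebius_divisors (n : ℕ) :
    ∑ g ∈ n.divisors, (ArithmeticFunction.moebius g : ℝ) = if n = 1 then 1 else 0 := by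
  have h : ((ArithmeticFunction.moebius : ArithmeticFunction ℝ) *
      (ArithmeticFunction.zeta : ArithmeticFunction ℝ)) n = (1 : ArithmeticFunction ℝ) n := by
    rw [ArithmeticFunction.coe_moebius_mul_coe_zeta]
  rw [ArithmeticFunction.coe_mul_zeta_apply, ArithmeticFunction.one_apply] at h
  simpa using h

open Classical in
/-- no rows `≡ (0,1)` are divisible by `g` not prime to `M` -/
theorem not_div {M : ℕ} {g : ℕ} (hgM : ¬ Nat.Coprime g M) (p : ℤ × ℤ) :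
    ¬ (((M : ℤ) ∣ p.1 ∧ (M : ℤ) ∣ p.2 - 1) ∧ (g : ℤ) ∣ p.1 ∧ (g : ℤ) ∣ p.2) := by
  rintro ⟨⟨_, h2⟩, _, h4⟩
  apply hgM
  rw [← Nat.isCoprime_iff_coprime]
  obtain ⟨u, hu⟩ := h2
  obtain ⟨v, hv⟩ := h4
  exact ⟨v, -u, by linear_combination hu - hv⟩

open Classical in
set_option maxHeartbeats 2000000 in
theorem EE_asymp {M : ℕ} (hM : 1 < M) : ∃ C : ℝ, 0 ≤ C ∧ ∀ (s : ℝ) (τ : ℍ) (g : SL(2, ℤ)),
    1 < s → s ≤ 2 → 1 / 2 ≤ (g • τ).im →
    |EE M s τ - JJ M s * ZP M s| ≤ C * (g • τ).im ^ 2 := by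
  have hM0 : M ≠ 0 := by omega
  obtain ⟨C, hC0, hC⟩ := GG_asymp_orbit hM0
  refine ⟨(∑' g : ℕ, ((g : ℝ) ^ 2)⁻¹) * C, mul_nonneg (tsum_nonneg fun g => by positivity) hC0,
    fun s τ γ h1 h2 hy => ?_⟩
  set Y := C * (γ • τ).im ^ 2 with hY
  have hY0 : 0 ≤ Y := mul_nonneg hC0 (sq_nonneg _)
  have hGG : ∀ a b : ℤ, |GG M s τ.re τ.im a b - JJ M s| ≤ Y := hC s τ γ h1 h2 hy
  -- the terms
  let A : ℕ → ℤ × ℤ → ℝ := fun g p =>
    if ((M : ℤ) ∣ p.1 ∧ (M : ℤ) ∣ p.2 - 1) ∧ (g : ℤ) ∣ p.1 ∧ (g : ℤ) ∣ p.2 then tt s τ p else 0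
  have hA0 : ∀ g p, 0 ≤ A g p := fun g p => by
    simp only [A]; split_ifs
    · exact tt_nonneg _ _ _
    · exact le_rfl
  -- for each `g` a sum
  have hS : ∀ g : ℕ, ∃ B : ℝ, HasSum (A g) B ∧
      (¬ (0 < g ∧ Nat.Coprime g M) → B = 0) ∧
      (Nat.Coprime g M → |B - (g : ℝ) ^ (-(2 * s)) * JJ M s| ≤ (g : ℝ) ^ (-(2 * s)) * Y) := by
    intro g
    by_cases hg : 0 < g ∧ Nat.Coprime g M
    · obtain ⟨g', hg'⟩ := sum_div hM h1 h2 τ hg.1 hg.2
      refine ⟨_, hg', fun h => absurd hg h, fun _ => ?_⟩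
      rw [← mul_sub, abs_mul, abs_of_nonneg (Real.rpow_nonneg (Nat.cast_nonneg g) _)]
      exact mul_le_mul_of_nonneg_left (hGG 0 g') (Real.rpow_nonneg (Nat.cast_nonneg g) _)
    · have hz : A g = fun _ => 0 := by
        ext p
        simp only [A]
        rw [if_neg]
        by_cases hg0 : 0 < g
        · exact not_div (fun h => hg ⟨hg0, h⟩) p
        · have hg1 : g = 0 := by omega
          subst hg1
          refine not_div (fun h => ?_) p
          rw [Nat.coprime_zero_left] at h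
          omega
      refine ⟨0, by rw [hz]; exact hasSum_zero, fun _ => rfl, fun hc => ?_⟩
      have hg1 : g = 0 := by
        by_contra hne
        exact hg ⟨Nat.pos_of_ne_zero hne, hc⟩
      subst hg1
      rw [Nat.coprime_zero_left] at hc
      omega
  choose B hB hB0 hB1 using hS
  have hBnn : ∀ g, 0 ≤ B g := fun g => (hB g).nonneg (hA0 g)
  have hBle : ∀ g, B g ≤ ((g : ℝ) ^ 2)⁻¹ * (|JJ M s| + Y) := by
    intro g
    by_cases hc : Nat.Coprime g M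
    · have h3 := (abs_le.mp (hB1 g hc)).2
      have h4 := nat_rpow_le h1 g
      have h5 : (0 : ℝ) ≤ (g : ℝ) ^ (-(2 * s)) := by positivity
      have h6 : (g : ℝ) ^ (-(2 * s)) * (JJ M s + Y) ≤ (g : ℝ) ^ (-(2 * s)) * (|JJ M s| + Y) :=
        mul_le_mul_of_nonneg_left (by linarith [le_abs_self (JJ M s)]) h5
      have h7 : (g : ℝ) ^ (-(2 * s)) * (|JJ M s| + Y) ≤ ((g : ℝ) ^ 2)⁻¹ * (|JJ M s| + Y) :=
        mul_le_mul_of_nonneg_right h4 (by positivity)
      linarith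
    · rw [hB0 g (fun h => hc h.2)]
      positivity
  have hBsum : Summable B := Summable.of_nonneg_of_le hBnn hBle (summable_natsq.mul_right _)
  have hμ : ∀ g : ℕ, |(ArithmeticFunction.moebius g : ℝ)| ≤ 1 := abs_moebius_le
  -- summability on the product
  have hprod : Summable fun q : ℕ × (ℤ × ℤ) =>
      (ArithmeticFunction.moebius q.1 : ℝ) * A q.1 q.2 := by
    have hprod0 : Summable fun q : ℕ × (ℤ × ℤ) => A q.1 q.2 := by
      rw [summable_prod_of_nonneg (fun q => hA0 _ _)]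
      refine ⟨fun g => (hB g).summable, ?_⟩
      refine hBsum.congr fun g => ?_
      exact ((hB g).tsum_eq).symm
    refine Summable.of_norm_bounded hprod0 fun q => ?_
    rw [norm_mul, Real.norm_eq_abs, Real.norm_eq_abs, abs_of_nonneg (hA0 _ _)]
    exact mul_le_of_le_one_left (hA0 _ _) (hμ _)
  have hcomm : ∑' p : ℤ × ℤ, ∑' g : ℕ, (ArithmeticFunction.moebius g : ℝ) * A g p =
      ∑' g : ℕ, ∑' p : ℤ × ℤ, (ArithmeticFunction.moebius g : ℝ) * A g p := hprod.tsum_comm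
  -- left side
  have hleft : EE M s τ = ∑' p : ℤ × ℤ, ∑' g : ℕ, (ArithmeticFunction.moebius g : ℝ) * A g p := by
    unfold EE
    refine tsum_congr fun p => ?_
    by_cases hX : (M : ℤ) ∣ p.1 ∧ (M : ℤ) ∣ p.2 - 1
    · have hn : Int.gcd p.1 p.2 ≠ 0 := by
        intro h0
        rw [Int.gcd_eq_zero_iff] at h0
        have h3 := hX.2
        rw [h0.2, zero_sub, dvd_neg] at h3
        have := Int.eq_one_of_dvd_one (by positivity) h3
        omega
      have hterm : ∀ g : ℕ, (ArithmeticFunction.moebius g : ℝ) * A g p =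
          if g ∣ Int.gcd p.1 p.2 then (ArithmeticFunction.moebius g : ℝ) * tt s τ p else 0 := by
        intro g
        simp only [A]
        have h4 : (g : ℤ) ∣ p.1 ∧ (g : ℤ) ∣ p.2 ↔ g ∣ Int.gcd p.1 p.2 := by
          rw [Int.dvd_gcd_iff]
          
        by_cases h5 : g ∣ Int.gcd p.1 p.2
        · rw [if_pos h5, if_pos ⟨hX, h4.mpr h5⟩]
        · rw [if_neg h5, if_neg (fun h => h5 (h4.mp h.2)), mul_zero]
      simp only [hterm]
      rw [tsum_eq_sum (s := (Int.gcd p.1 p.2).divisors) (fun g hg => by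
        rw [if_neg]
        intro h
        exact hg (Nat.mem_divisors.mpr ⟨h, hn⟩))]
      have h6 : ∑ g ∈ (Int.gcd p.1 p.2).divisors,
          (if g ∣ Int.gcd p.1 p.2 then (ArithmeticFunction.moebius g : ℝ) * tt s τ p else 0) =
          (∑ g ∈ (Int.gcd p.1 p.2).divisors, (ArithmeticFunction.moebius g : ℝ)) * tt s τ p := by
        rw [Finset.sum_mul]
        refine Finset.sum_congr rfl fun g hg => ?_
        rw [if_pos (Nat.dvd_of_mem_divisors hg)]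
      rw [h6, sum_moebius_divisors _]
      by_cases h7 : Int.gcd p.1 p.2 = 1
      · rw [if_pos h7, one_mul, if_pos (show p ∈ PR M from ⟨h7, hX⟩)]
      · rw [if_neg h7, zero_mul, if_neg (fun h : p ∈ PR M => h7 h.1)]
    · rw [if_neg (fun h : p ∈ PR M => hX h.2)]
      have hterm : ∀ g : ℕ, (ArithmeticFunction.moebius g : ℝ) * A g p = 0 := by
        intro g
        simp only [A]
        rw [if_neg (fun h => hX h.1), mul_zero]
      simp only [hterm, tsum_zero]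
  -- right side
  have hright : ∀ g : ℕ, ∑' p : ℤ × ℤ, (ArithmeticFunction.moebius g : ℝ) * A g p =
      (ArithmeticFunction.moebius g : ℝ) * B g := by
    intro g
    rw [tsum_mul_left, (hB g).tsum_eq]
  rw [hleft, hcomm]
  simp only [hright]
  have hZ : Summable fun g : ℕ => if Nat.Coprime g M then
      (ArithmeticFunction.moebius g : ℝ) * (g : ℝ) ^ (-(2 * s)) else 0 := by
    refine Summable.of_norm_bounded summable_natsq fun g => ?_
    split_ifs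
    · rw [norm_mul, Real.norm_eq_abs, Real.norm_eq_abs,
        abs_of_nonneg (Real.rpow_nonneg (Nat.cast_nonneg g) _)]
      exact (mul_le_of_le_one_left (by positivity) (hμ g)).trans (nat_rpow_le h1 g)
    · rw [norm_zero]; positivity
  have hMB : Summable fun g : ℕ => (ArithmeticFunction.moebius g : ℝ) * B g := by
    refine Summable.of_norm_bounded hBsum fun g => ?_
    rw [norm_mul, Real.norm_eq_abs, Real.norm_eq_abs, abs_of_nonneg (hBnn g)]
    exact mul_le_of_le_one_left (hBnn g) (hμ g)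
  rw [ZP, ← tsum_mul_left, ← hMB.tsum_sub (hZ.mul_left _), ← Real.norm_eq_abs]
  have hb := (summable_natsq.mul_right Y).hasSum
  rw [tsum_mul_right] at hb
  rw [mul_assoc]
  refine tsum_of_norm_bounded hb fun g => ?_
  by_cases hc : Nat.Coprime g M
  · rw [if_pos hc, Real.norm_eq_abs]
    have e1 : (ArithmeticFunction.moebius g : ℝ) * B g -
        JJ M s * ((ArithmeticFunction.moebius g : ℝ) * (g : ℝ) ^ (-(2 * s))) =
        (ArithmeticFunction.moebius g : ℝ) * (B g - (g : ℝ) ^ (-(2 * s)) * JJ M s) := by ring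
    rw [e1, abs_mul]
    calc |(ArithmeticFunction.moebius g : ℝ)| * |B g - (g : ℝ) ^ (-(2 * s)) * JJ M s|
        ≤ 1 * ((g : ℝ) ^ (-(2 * s)) * Y) :=
          mul_le_mul (hμ g) (hB1 g hc) (abs_nonneg _) zero_le_one
      _ ≤ ((g : ℝ) ^ 2)⁻¹ * Y := by
          rw [one_mul]
          exact mul_le_mul_of_nonneg_right (nat_rpow_le h1 g) hY0
  · rw [if_neg hc, hB0 g (fun h => hc h.2)]
    simp only [mul_zero, sub_zero, norm_zero]
    positivity

end Fermat.Agent.LT.Asai
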