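import Mathlib

/-!
# Euler products attached to tempered Hecke eigenvalues
-/

set_option autoImplicit false

open Finset Nat Filter Topology

namespace Fermat.Agent.LT.Asai

/-- Chebyshev polynomials of the second kind, normalised: `Uc (Z + Z⁻¹) n = Z^n + ... + Z^{-n}`. -/
noncomputable def Uc (x : ℝ) : ℕ → ℝ
  | 0 => 1
  | 1 => x
  | (n + 2) => x * Uc x (n + 1) - Uc x n

theorem Uc_zero (x : ℝ) : Uc x 0 = 1 := by rw [Uc]
theorem Uc_one (x : ℝ) : Uc x 1 = x := by rw [Uc]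
theorem Uc_succ (x : ℝ) (n : ℕ) : Uc x (n + 2) = x * Uc x (n + 1) - Uc x n := by rw [Uc]

theorem abs_Uc_le {x : ℝ} (hx : |x| ≤ 2) (n : ℕ) : |Uc x n| ≤ n + 1 := by
  have hx2 : x ^ 2 / 4 ≤ 1 := by
    have := sq_abs x
    nlinarith [abs_nonneg x]
  obtain ⟨Z, hZ1, hZ2⟩ : ∃ Z : ℂ, ‖Z‖ = 1 ∧ Z + (starRingEnd ℂ) Z = x := by
    refine ⟨⟨x / 2, Real.sqrt (1 - x ^ 2 / 4)⟩, ?_, ?_⟩
    · have h := Complex.sq_norm (⟨x / 2, Real.sqrt (1 - x ^ 2 / 4)⟩ : ℂ)
      rw [Complex.normSq_apply] at h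
      simp only at h
      rw [Real.mul_self_sqrt (by linarith)] at h
      have h2 : ‖(⟨x / 2, Real.sqrt (1 - x ^ 2 / 4)⟩ : ℂ)‖ ^ 2 = 1 := by rw [h]; ring
      have h3 := norm_nonneg (⟨x / 2, Real.sqrt (1 - x ^ 2 / 4)⟩ : ℂ)
      nlinarith
    · rw [Complex.add_conj]
      push_cast
      ring
  have hZZ : Z * (starRingEnd ℂ) Z = 1 := by
    rw [Complex.mul_conj, Complex.normSq_eq_norm_sq, hZ1]
    norm_num
  have key : ∀ n : ℕ, (Uc x (n + 1) : ℂ) = Z * Uc x n + (starRingEnd ℂ) Z ^ (n + 1) := by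
    intro n
    induction n with
    | zero => rw [Uc_zero, Uc_one, ← hZ2]; push_cast; ring
    | succ n ih =>
      rw [Uc_succ]
      push_cast
      rw [← hZ2, ih]
      linear_combination (Uc x n : ℂ) * hZZ
  induction n with
  | zero => rw [Uc_zero]; simp
  | succ n ih =>
    have h1 : ‖(Uc x (n + 1) : ℂ)‖ ≤ ‖(Uc x n : ℂ)‖ + 1 := by
      rw [key n]
      refine (norm_add_le _ _).trans ?_
      rw [norm_mul, hZ1, one_mul, norm_pow, RCLike.norm_conj, hZ1, one_pow]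
    rw [Complex.norm_real, Complex.norm_real, Real.norm_eq_abs, Real.norm_eq_abs] at h1
    push_cast
    linarith

/-- The multiplicative function with given values at prime powers. -/
noncomputable def Lam (loc : ℕ → ℕ → ℝ) (n : ℕ) : ℝ :=
  if n = 0 then 0 else n.factorization.prod loc

section

variable {loc : ℕ → ℕ → ℝ}

theorem Lam_zero : Lam loc 0 = 0 := if_pos rfl

theorem Lam_one : Lam loc 1 = 1 := by
  rw [Lam, if_neg one_ne_zero, Nat.factorization_one, Finsupp.prod_zero_index]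

theorem Lam_mul {m n : ℕ} (h : Nat.Coprime m n) : Lam loc (m * n) = Lam loc m * Lam loc n := by
  unfold Lam
  by_cases hm : m = 0
  · simp [hm]
  by_cases hn : n = 0
  · simp [hn]
  rw [if_neg (mul_ne_zero hm hn), if_neg hm, if_neg hn, Nat.factorization_mul_of_coprime h]
  refine Finsupp.prod_add_index_of_disjoint ?_ loc
  simpa using h.disjoint_primeFactors

theorem Lam_prime_pow (h0 : ∀ p, loc p 0 = 1) {p : ℕ} (hp : p.Prime) (e : ℕ) :
    Lam loc (p ^ e) = loc p e := by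
  rw [Lam, if_neg (pow_ne_zero _ hp.ne_zero), hp.factorization_pow,
    Finsupp.prod_single_index (h0 p)]

theorem sq_le_two_pow (e : ℕ) : ((e : ℝ) + 1) ^ 2 ≤ 4 * 2 ^ e := by
  induction e with
  | zero => norm_num
  | succ e ih =>
    rcases Nat.lt_or_ge e 2 with h | h
    · interval_cases e <;> norm_num
    · have h2 : (2 : ℝ) ≤ e := by exact_mod_cast h
      push_cast
      rw [pow_succ 2 e]
      nlinarith

theorem sq_le_two_pow' (e : ℕ) : (((e + 2 : ℕ) : ℝ) + 1) ^ 2 ≤ 9 * 2 ^ e := by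
  induction e with
  | zero => norm_num
  | succ e ih =>
    push_cast at ih ⊢
    rw [pow_succ 2 e]
    have : (0 : ℝ) ≤ e := Nat.cast_nonneg e
    nlinarith

theorem summable_sq_mul_pow {x : ℝ} (hx0 : 0 ≤ x) (hx : x ≤ 1 / 20) :
    Summable fun e : ℕ => ((e : ℝ) + 1) ^ 2 * x ^ e := by
  have h1 : Summable fun e : ℕ => 4 * (2 * x) ^ e :=
    (summable_geometric_of_lt_one (by linarith) (by linarith)).mul_left 4
  refine Summable.of_nonneg_of_le (fun e => by positivity) (fun e => ?_) h1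
  rw [mul_pow]
  have := mul_le_mul_of_nonneg_right (sq_le_two_pow e) (pow_nonneg hx0 e)
  linarith

theorem tsum_tail_le {a : ℕ → ℝ} (ha : ∀ e : ℕ, |a e| ≤ ((e : ℝ) + 1) ^ 2) {x : ℝ}
    (hx0 : 0 ≤ x) (hx : x ≤ 1 / 20) (h0 : a 0 = 1) :
    Summable (fun e => a e * x ^ e) ∧
    |∑' e, a e * x ^ e - 1 - a 1 * x| ≤ 10 * x ^ 2 := by
  have hs : Summable fun e : ℕ => a e * x ^ e := by
    refine Summable.of_norm_bounded (summable_sq_mul_pow hx0 hx) fun e => ?_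
    rw [norm_mul, norm_pow, Real.norm_eq_abs, Real.norm_eq_abs, abs_of_nonneg hx0]
    exact mul_le_mul_of_nonneg_right (ha e) (pow_nonneg hx0 e)
  refine ⟨hs, ?_⟩
  have h1 := hs.sum_add_tsum_nat_add 2
  rw [Finset.sum_range_succ, Finset.sum_range_one, h0] at h1
  have h2 : ∑' e, a e * x ^ e - 1 - a 1 * x = ∑' e, a (e + 2) * x ^ (e + 2) := by
    rw [← h1]; ring
  rw [h2]
  have h3 : Summable fun e : ℕ => 9 * x ^ 2 * (2 * x) ^ e :=
    (summable_geometric_of_lt_one (by linarith) (by linarith)).mul_left _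
  have h4 : ∀ e : ℕ, ‖a (e + 2) * x ^ (e + 2)‖ ≤ 9 * x ^ 2 * (2 * x) ^ e := by
    intro e
    rw [norm_mul, norm_pow, Real.norm_eq_abs, Real.norm_eq_abs, abs_of_nonneg hx0, pow_add, mul_pow]
    have h5 := (ha (e + 2)).trans (sq_le_two_pow' e)
    have h6 := mul_le_mul_of_nonneg_right h5 (mul_nonneg (pow_nonneg hx0 e) (pow_nonneg hx0 2))
    linarith
  have h7 := tsum_of_norm_bounded h3.hasSum h4
  rw [Real.norm_eq_abs] at h7
  refine h7.trans ?_
  rw [tsum_mul_left, tsum_geometric_of_lt_one (by linarith) (by linarith)]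
  have h8 : (1 - 2 * x)⁻¹ ≤ 10 / 9 := by
    rw [inv_le_comm₀ (by linarith) (by norm_num)]
    linarith
  nlinarith [mul_le_mul_of_nonneg_left h8 (sq_nonneg x)]

theorem exp_le_one_add {t : ℝ} (ht : -(1 / 2) ≤ t) : Real.exp (t - 2 * t ^ 2) ≤ 1 + t := by
  have h1 : 0 < 1 + t := by linarith
  rw [← Real.exp_log h1]
  apply Real.exp_le_exp.mpr
  refine le_trans ?_ (Real.one_sub_inv_le_log_of_pos h1)
  have h2 : 1 - (1 + t)⁻¹ = t / (1 + t) := by field_simp; ring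
  rw [h2, le_div_iff₀ h1]
  nlinarith [sq_nonneg t, mul_nonneg (sq_nonneg t) (by linarith : (0 : ℝ) ≤ 1 + 2 * t)]

theorem euler_factor_ge {a : ℕ → ℝ} (ha : ∀ e : ℕ, |a e| ≤ ((e : ℝ) + 1) ^ 2) {x : ℝ}
    (hx0 : 0 ≤ x) (hx : x ≤ 1 / 20) (h0 : a 0 = 1) :
    Real.exp (a 1 * x - 51 * x ^ 2) ≤ ∑' e, a e * x ^ e := by
  obtain ⟨-, h1⟩ := tsum_tail_le ha hx0 hx h0
  set X := ∑' e, a e * x ^ e with hX
  rw [abs_le] at h1
  have ha1 : |a 1| ≤ 4 := by have := ha 1; norm_num at this; exact this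
  rw [abs_le] at ha1
  have h2 : a 1 * x ≤ 4 * x := mul_le_mul_of_nonneg_right ha1.2 hx0
  have h3 : -(4 * x) ≤ a 1 * x := by nlinarith
  have hxx : x ^ 2 ≤ x / 20 := by nlinarith
  have ht1 : X - 1 ≤ 9 / 2 * x := by linarith
  have ht2 : -(9 / 2 * x) ≤ X - 1 := by linarith
  have ht3 : (X - 1) ^ 2 ≤ 81 / 4 * x ^ 2 := by nlinarith
  have h5 := exp_le_one_add (t := X - 1) (by linarith)
  rw [add_sub_cancel] at h5
  refine le_trans (Real.exp_le_exp.mpr ?_) h5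
  linarith

theorem euler_norm_le {a : ℕ → ℝ} (ha : ∀ e : ℕ, |a e| ≤ ((e : ℝ) + 1) ^ 2) {x : ℝ}
    (hx0 : 0 ≤ x) (hx : x ≤ 1 / 20) (h0 : a 0 = 1) :
    Summable (fun e => |a e| * x ^ e) ∧ ∑' e, |a e| * x ^ e ≤ Real.exp (5 * x) := by
  obtain ⟨h1, h2⟩ := tsum_tail_le (a := fun e => |a e|) (fun e => by rw [abs_abs]; exact ha e)
    hx0 hx (by simp [h0])
  refine ⟨h1, ?_⟩
  rw [abs_le] at h2
  have ha1 : |a 1| ≤ 4 := by have := ha 1; norm_num at this; exact this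
  have h3 : |a 1| * x ≤ 4 * x := mul_le_mul_of_nonneg_right ha1 hx0
  have h4 := Real.add_one_le_exp (5 * x)
  nlinarith

variable (h0 : ∀ p, loc p 0 = 1) (hb : ∀ p e : ℕ, |loc p e| ≤ ((e : ℝ) + 1) ^ 2)
  (hs : ∀ p e : ℕ, p < 20 → e ≠ 0 → loc p e = 0)

theorem pow_rpow (p e : ℕ) (s : ℝ) : (((p ^ e : ℕ) : ℝ)) ^ (-s) = ((p : ℝ) ^ (-s)) ^ e := by
  rw [Nat.cast_pow, ← Real.rpow_natCast, ← Real.rpow_natCast, ← Real.rpow_mul (Nat.cast_nonneg _),
    ← Real.rpow_mul (Nat.cast_nonneg _), mul_comm]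

theorem rpow_le_twentieth {p : ℕ} (hp : 20 ≤ p) {s : ℝ} (h1 : 1 < s) :
    (p : ℝ) ^ (-s) ≤ 1 / 20 := by
  have hp' : (20 : ℝ) ≤ p := by exact_mod_cast hp
  calc (p : ℝ) ^ (-s) ≤ (p : ℝ) ^ (-1 : ℝ) :=
        Real.rpow_le_rpow_of_exponent_le (by linarith) (by linarith)
    _ = (p : ℝ)⁻¹ := Real.rpow_neg_one _
    _ ≤ 1 / 20 := by rw [one_div]; exact inv_anti₀ (by norm_num) hp'

include h0 hb hs in
theorem local_summable {p : ℕ} (hp : p.Prime) {s : ℝ} (h1 : 1 < s) :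
    Summable fun e : ℕ => ‖Lam loc (p ^ e) * ((p ^ e : ℕ) : ℝ) ^ (-s)‖ := by
  have he : ∀ e : ℕ, ‖Lam loc (p ^ e) * ((p ^ e : ℕ) : ℝ) ^ (-s)‖ =
      |loc p e| * ((p : ℝ) ^ (-s)) ^ e := by
    intro e
    rw [Lam_prime_pow h0 hp, pow_rpow, norm_mul, Real.norm_eq_abs, Real.norm_eq_abs,
      abs_of_nonneg (pow_nonneg (Real.rpow_nonneg (Nat.cast_nonneg _) _) _)]
  simp only [he]
  by_cases h20 : p < 20
  · refine summable_of_ne_finset_zero (s := {0}) fun e he => ?_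
    rw [hs p e h20 (by simpa using he)]
    simp
  · exact (euler_norm_le (hb p) (Real.rpow_nonneg (Nat.cast_nonneg _) _)
      (rpow_le_twentieth (not_lt.mp h20) h1) (h0 p)).1

include h0 hb hs in
theorem local_norm_le {p : ℕ} (hp : p.Prime) {s : ℝ} (h1 : 1 < s) :
    ∑' e : ℕ, ‖Lam loc (p ^ e) * ((p ^ e : ℕ) : ℝ) ^ (-s)‖ ≤ Real.exp (5 * (p : ℝ) ^ (-s)) := by
  have he : ∀ e : ℕ, ‖Lam loc (p ^ e) * ((p ^ e : ℕ) : ℝ) ^ (-s)‖ =
      |loc p e| * ((p : ℝ) ^ (-s)) ^ e := by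
    intro e
    rw [Lam_prime_pow h0 hp, pow_rpow, norm_mul, Real.norm_eq_abs, Real.norm_eq_abs,
      abs_of_nonneg (pow_nonneg (Real.rpow_nonneg (Nat.cast_nonneg _) _) _)]
  simp only [he]
  by_cases h20 : p < 20
  · rw [tsum_eq_single 0 (fun e he => by rw [hs p e h20 he]; simp), h0]
    simp only [abs_one, pow_zero, mul_one]
    apply Real.one_le_exp
    positivity
  · exact (euler_norm_le (hb p) (Real.rpow_nonneg (Nat.cast_nonneg _) _)
      (rpow_le_twentieth (not_lt.mp h20) h1) (h0 p)).2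

include h0 hb hs in
theorem local_ge {p : ℕ} (hp : p.Prime) {s : ℝ} (h1 : 1 < s) :
    Real.exp (loc p 1 * (p : ℝ) ^ (-s) - 51 * (p : ℝ) ^ (-2 : ℝ)) ≤
      ∑' e : ℕ, Lam loc (p ^ e) * ((p ^ e : ℕ) : ℝ) ^ (-s) := by
  have he : ∀ e : ℕ, Lam loc (p ^ e) * ((p ^ e : ℕ) : ℝ) ^ (-s) =
      loc p e * ((p : ℝ) ^ (-s)) ^ e := by
    intro e
    rw [Lam_prime_pow h0 hp, pow_rpow]
  simp only [he]
  by_cases h20 : p < 20
  · rw [tsum_eq_single 0 (fun e he => by rw [hs p e h20 he]; simp), h0, hs p 1 h20 one_ne_zero]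
    simp only [pow_zero, mul_one, zero_mul, zero_sub]
    rw [← Real.exp_zero]
    apply Real.exp_le_exp.mpr
    have : (0 : ℝ) ≤ (p : ℝ) ^ (-2 : ℝ) := by positivity
    linarith
  · refine le_trans (Real.exp_le_exp.mpr ?_)
      (euler_factor_ge (hb p) (Real.rpow_nonneg (Nat.cast_nonneg p) (-s))
      (rpow_le_twentieth (not_lt.mp h20) h1) (h0 p))
    have hp1 : (1 : ℝ) ≤ p := by exact_mod_cast hp.one_lt.le
    have h3 : ((p : ℝ) ^ (-s)) ^ 2 ≤ (p : ℝ) ^ (-2 : ℝ) := by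
      rw [← Real.rpow_natCast, ← Real.rpow_mul (Nat.cast_nonneg _)]
      apply Real.rpow_le_rpow_of_exponent_le hp1
      push_cast
      linarith
    linarith

include h0 hb hs in
/-- absolute convergence for `s > 1` -/
theorem summable_Lam {s : ℝ} (h1 : 1 < s) : Summable fun n : ℕ => ‖Lam loc n * (n : ℝ) ^ (-s)‖ := by
  set f : ℕ → ℝ := fun n => Lam loc n * (n : ℝ) ^ (-s) with hf
  have hf1 : f 1 = 1 := by simp [hf, Lam_one]
  have hf0 : f 0 = 0 := by simp [hf, Lam_zero]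
  have hmul : ∀ {m n : ℕ}, Nat.Coprime m n → f (m * n) = f m * f n := by
    intro m n hmn
    simp only [hf]
    rw [Lam_mul hmn, Nat.cast_mul, Real.mul_rpow (Nat.cast_nonneg _) (Nat.cast_nonneg _)]
    ring
  have hmul' : ∀ {m n : ℕ}, Nat.Coprime m n → ‖f (m * n)‖ = ‖f m‖ * ‖f n‖ := by
    intro m n hmn
    rw [hmul hmn, norm_mul]
  have hP : Summable fun p : Nat.Primes => ((p : ℕ) : ℝ) ^ (-s) :=
    Nat.Primes.summable_rpow.mpr (by linarith)
  refine summable_of_sum_range_le (c := Real.exp (5 * ∑' p : Nat.Primes, ((p : ℕ) : ℝ) ^ (-s)))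
    (fun n => norm_nonneg _) fun N => ?_
  have h2 := EulerProduct.summable_and_hasSum_smoothNumbers_prod_primesBelow_tsum
    (f := fun n => ‖f n‖) (by rw [hf1, norm_one]) hmul'
    (fun {p} hp => by
      simp only [norm_norm]
      exact local_summable h0 hb hs hp h1) N
  have h3 : ∑ n ∈ Finset.range N, ‖f n‖ ≤ ∑' m : N.smoothNumbers, ‖f m‖ := by
    classical
    rw [tsum_subtype N.smoothNumbers (fun n => ‖f n‖)]
    have hsm : Summable (Set.indicator N.smoothNumbers fun n => ‖f n‖) := by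
      rw [← summable_subtype_iff_indicator]
      exact h2.2.summable
    refine le_trans (Finset.sum_le_sum fun n hn => ?_)
      (hsm.sum_le_tsum (Finset.range N) fun n _ => Set.indicator_nonneg (fun _ _ => norm_nonneg _) _)
    by_cases hn0 : n = 0
    · rw [hn0, hf0, norm_zero]
      exact Set.indicator_nonneg (fun _ _ => norm_nonneg _) _
    · rw [Set.indicator_of_mem]
      exact Nat.mem_smoothNumbers_of_lt (Nat.pos_of_ne_zero hn0) (Finset.mem_range.mp hn)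
  refine h3.trans ?_
  rw [h2.2.tsum_eq]
  have h4 : ∏ p ∈ N.primesBelow, ∑' e : ℕ, ‖f (p ^ e)‖ ≤
      ∏ p ∈ N.primesBelow, Real.exp (5 * (p : ℝ) ^ (-s)) := by
    refine Finset.prod_le_prod (fun p _ => tsum_nonneg fun e => norm_nonneg _) fun p hp => ?_
    exact local_norm_le h0 hb hs (Nat.prime_of_mem_primesBelow hp) h1
  refine h4.trans ?_
  rw [← Real.exp_sum, ← Finset.mul_sum]
  apply Real.exp_le_exp.mpr
  apply mul_le_mul_of_nonneg_left _ (by norm_num)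
  have h5 : ∑ p ∈ N.primesBelow, (p : ℝ) ^ (-s) =
      ∑ p ∈ N.primesBelow.subtype (fun p => p.Prime), ((p : ℕ) : ℝ) ^ (-s) := by
    rw [← Finset.sum_subtype_of_mem (fun p : ℕ => (p : ℝ) ^ (-s))
      (fun p hp => Nat.prime_of_mem_primesBelow hp)]
  rw [h5]
  exact Summable.sum_le_tsum (ι := Nat.Primes) _ (fun p _ => by positivity) hP

include h0 hb hs in
/-- the lower bound -/
theorem exp_le_tsum_Lam {s : ℝ} (h1 : 1 < s) :
    Real.exp (∑' p : Nat.Primes, loc p 1 * ((p : ℕ) : ℝ) ^ (-s) -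
      51 * ∑' p : Nat.Primes, ((p : ℕ) : ℝ) ^ (-2 : ℝ)) ≤ ∑' n : ℕ, Lam loc n * (n : ℝ) ^ (-s) := by
  set f : ℕ → ℝ := fun n => Lam loc n * (n : ℝ) ^ (-s) with hf
  have hf1 : f 1 = 1 := by simp [hf, Lam_one]
  have hf0 : f 0 = 0 := by simp [hf, Lam_zero]
  have hmul : ∀ {m n : ℕ}, Nat.Coprime m n → f (m * n) = f m * f n := by
    intro m n hmn
    simp only [hf]
    rw [Lam_mul hmn, Nat.cast_mul, Real.mul_rpow (Nat.cast_nonneg _) (Nat.cast_nonneg _)]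
    ring
  have hprod := EulerProduct.eulerProduct_hasProd hf1 hmul (summable_Lam h0 hb hs h1) hf0
  have hP : Summable fun p : Nat.Primes => ((p : ℕ) : ℝ) ^ (-s) :=
    Nat.Primes.summable_rpow.mpr (by linarith)
  have hP2 : Summable fun p : Nat.Primes => ((p : ℕ) : ℝ) ^ (-2 : ℝ) :=
    Nat.Primes.summable_rpow.mpr (by norm_num)
  have hL : Summable fun p : Nat.Primes => loc p 1 * ((p : ℕ) : ℝ) ^ (-s) := by
    refine Summable.of_norm_bounded (hP.mul_left 4) fun p => ?_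
    rw [norm_mul, Real.norm_eq_abs, Real.norm_eq_abs,
      abs_of_nonneg (Real.rpow_nonneg (Nat.cast_nonneg (p : ℕ)) (-s))]
    refine mul_le_mul_of_nonneg_right ?_ (Real.rpow_nonneg (Nat.cast_nonneg _) _)
    have := hb p 1
    norm_num at this
    exact this
  have hsum : HasSum (fun p : Nat.Primes => loc p 1 * ((p : ℕ) : ℝ) ^ (-s) -
      51 * ((p : ℕ) : ℝ) ^ (-2 : ℝ)) (∑' p : Nat.Primes, loc p 1 * ((p : ℕ) : ℝ) ^ (-s) -
      51 * ∑' p : Nat.Primes, ((p : ℕ) : ℝ) ^ (-2 : ℝ)) :=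
    hL.hasSum.sub (hP2.hasSum.mul_left 51)
  refine le_of_tendsto_of_tendsto' ((Real.continuous_exp.tendsto _).comp hsum) hprod fun S => ?_
  simp only [Function.comp_apply]
  rw [Real.exp_sum]
  exact Finset.prod_le_prod (fun p _ => (Real.exp_pos _).le) fun p _ => local_ge h0 hb hs p.2 h1

end

end Fermat.Agent.LT.Asai
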