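import Mathlib
import Fermat.Agent.LT.Asai.Euler
import Fermat.Agent.ChebFull.Places

/-!
# The Asai Dirichlet series is unbounded near `s = 1`
-/

set_option autoImplicit false

open Finset Nat Filter Topology

open scoped Classical

namespace Fermat.Agent.LT.Asai

/-- lower density bound (all `ε`) -/
def DensGE (T : ℕ → Prop) (δ : ℝ) : Prop :=
  ∀ ε : ℝ, 0 < ε → ∃ C : ℝ, ∀ s : ℝ, 1 < s → s ≤ 2 →
    (δ - ε) * Real.log (1 / (s - 1)) - C ≤
      ∑' p : Nat.Primes, if T p then ((p : ℕ) : ℝ) ^ (-s) else 0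

theorem log_nonneg' {s : ℝ} (h1 : 1 < s) (h2 : s ≤ 2) : 0 ≤ Real.log (1 / (s - 1)) := by
  apply Real.log_nonneg
  rw [le_div_iff₀ (by linarith)]
  linarith

theorem pointwise_types {u u' : ℝ} {A C D : Prop} {r : ℕ} {c w : ℝ}
    (hw : w = if r = 1 then u ^ 2 + u' ^ 2 else 0)
    (hA : A → r = 1 ∧ u = u' ∧ |u| = 2)
    (hC : C → r = 1 ∧ ¬ A ∧ ∃ ε : ℝ, (ε = 1 ∨ ε = -1) ∧ (u = ε ∨ u = -2 * ε) ∧
      (u' = ε ∨ u' = -2 * ε))
    (hD : D → r = 2 ∧ u = 2) (hD' : r = 2 → 0 ≤ u)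
    (hc1 : r = 1 → c = u * u') (hc2 : r = 2 → c = u) (hr : r = 1 ∨ r = 2) :
    12 * (if A then (1 : ℝ) else 0) + 3 * (if C then (1 : ℝ) else 0) +
      2 * (if D then (1 : ℝ) else 0) - w ≤ c := by
  rcases hr with hr | hr
  · have hnD : ¬ D := fun h => by have := (hD h).1; omega
    rw [if_neg hnD, hc1 hr, hw, if_pos hr]
    by_cases hAA : A
    · obtain ⟨-, h2, h3⟩ := hA hAA
      have hnC : ¬ C := fun h => (hC h).2.1 hAA
      rw [if_pos hAA, if_neg hnC]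
      subst h2
      have h4 : u ^ 2 = 4 := by rw [← sq_abs, h3]; norm_num
      nlinarith
    · rw [if_neg hAA]
      by_cases hCC : C
      · obtain ⟨-, -, ε, hε, hu, hu'⟩ := hC hCC
        rw [if_pos hCC]
        rcases hε with rfl | rfl <;> rcases hu with rfl | rfl <;> rcases hu' with rfl | rfl <;>
          norm_num
      · rw [if_neg hCC]
        nlinarith [sq_nonneg (u + u'), sq_nonneg u, sq_nonneg u']
  · have hnA : ¬ A := fun h => by have := (hA h).1; omega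
    have hnC : ¬ C := fun h => by have := (hC h).1; omega
    rw [if_neg hnA, if_neg hnC, hc2 hr, hw, if_neg (show ¬ r = 1 by omega)]
    by_cases hDD : D
    · rw [if_pos hDD, (hD hDD).2]
      norm_num
    · rw [if_neg hDD]
      have := hD' hr
      linarith

theorem tsum_Lam_unbounded {loc : ℕ → ℕ → ℝ} (h0 : ∀ p, loc p 0 = 1)
    (hb : ∀ p e : ℕ, |loc p e| ≤ ((e : ℝ) + 1) ^ 2)
    (hs : ∀ p e : ℕ, p < 20 → e ≠ 0 → loc p e = 0)
    (u u' : ℕ → ℝ) (Q' : ℕ) (h3Q : 3 ∣ Q') (hu : ∀ p, |u p| ≤ 2) (hu' : ∀ p, |u' p| ≤ 2)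
    (TA TC TD : ℕ → Prop)
    (hbad : ∀ p, p.Prime → p ∣ Q' → loc p 1 = 0)
    (hloc1 : ∀ p, p.Prime → ¬ p ∣ Q' → p % 3 = 1 → loc p 1 = u p * u' p)
    (hloc2 : ∀ p, p.Prime → ¬ p ∣ Q' → p % 3 = 2 → loc p 1 = u p)
    (hA : ∀ p, p.Prime → TA p → ¬ p ∣ Q' ∧ p % 3 = 1 ∧ u p = u' p ∧ |u p| = 2)
    (hC : ∀ p, p.Prime → TC p → ¬ p ∣ Q' ∧ p % 3 = 1 ∧ ¬ TA p ∧ ∃ ε : ℝ, (ε = 1 ∨ ε = -1) ∧
      (u p = ε ∨ u p = -2 * ε) ∧ (u' p = ε ∨ u' p = -2 * ε))
    (hD : ∀ p, p.Prime → TD p → ¬ p ∣ Q' ∧ p % 3 = 2 ∧ u p = 2)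
    (hD' : ∀ p, p.Prime → ¬ p ∣ Q' → p % 3 = 2 → 0 ≤ u p)
    (dA : DensGE TA (1 / 24)) (dC : DensGE TC (1 / 3)) (dD : DensGE TD (1 / 4))
    (h2 : ∃ C : ℝ, ∀ s : ℝ, 1 < s → s ≤ 2 → ∑' p : Nat.Primes,
      (if ¬ (p : ℕ) ∣ Q' ∧ (p : ℕ) % 3 = 1 then u p ^ 2 + u' p ^ 2 else 0) * ((p : ℕ) : ℝ) ^ (-s) ≤
      Real.log (1 / (s - 1)) + C) :
    ¬ Cheb.BddNear (fun s => ∑' n : ℕ, Lam loc n * (n : ℝ) ^ (-s)) := by
  rintro ⟨B, hB⟩
  obtain ⟨CA, hCA⟩ := dA (1 / 100) (by norm_num)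
  obtain ⟨CC, hCC⟩ := dC (1 / 100) (by norm_num)
  obtain ⟨CD, hCD⟩ := dD (1 / 100) (by norm_num)
  obtain ⟨C2, hC2⟩ := h2
  -- lower bound for the prime sum
  have key : ∀ s : ℝ, 1 < s → s ≤ 2 → 83 / 100 * Real.log (1 / (s - 1)) -
      (12 * CA + 3 * CC + 2 * CD + C2) ≤ ∑' p : Nat.Primes, loc p 1 * ((p : ℕ) : ℝ) ^ (-s) := by
    intro s hs1 hs2
    have hP : Summable fun p : Nat.Primes => ((p : ℕ) : ℝ) ^ (-s) :=
      Nat.Primes.summable_rpow.mpr (by linarith)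
    have hp0 : ∀ p : Nat.Primes, 0 ≤ ((p : ℕ) : ℝ) ^ (-s) := fun p =>
      Real.rpow_nonneg (Nat.cast_nonneg _) _
    have sA : Summable fun p : Nat.Primes => if TA p then ((p : ℕ) : ℝ) ^ (-s) else 0 :=
      ChebFull.summable_ind (fun p : Nat.Primes => TA p) hs1
    have sC : Summable fun p : Nat.Primes => if TC p then ((p : ℕ) : ℝ) ^ (-s) else 0 :=
      ChebFull.summable_ind (fun p : Nat.Primes => TC p) hs1
    have sD : Summable fun p : Nat.Primes => if TD p then ((p : ℕ) : ℝ) ^ (-s) else 0 :=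
      ChebFull.summable_ind (fun p : Nat.Primes => TD p) hs1
    have sw : Summable fun p : Nat.Primes =>
        (if ¬ (p : ℕ) ∣ Q' ∧ (p : ℕ) % 3 = 1 then u p ^ 2 + u' p ^ 2 else 0) *
        ((p : ℕ) : ℝ) ^ (-s) := by
      refine Summable.of_nonneg_of_le (fun p => mul_nonneg (by split_ifs <;> positivity) (hp0 p))
        (fun p => ?_) (hP.mul_left 8)
      refine mul_le_mul_of_nonneg_right ?_ (hp0 p)
      have e1 : u p ^ 2 ≤ 4 := by
        rw [← sq_abs]; have := hu p; nlinarith [abs_nonneg (u p)]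
      have e2 : u' p ^ 2 ≤ 4 := by
        rw [← sq_abs]; have := hu' p; nlinarith [abs_nonneg (u' p)]
      split_ifs
      · linarith
      · norm_num
    have sL : Summable fun p : Nat.Primes => loc p 1 * ((p : ℕ) : ℝ) ^ (-s) := by
      refine Summable.of_norm_bounded (hP.mul_left 4) fun p => ?_
      rw [norm_mul, Real.norm_eq_abs, Real.norm_eq_abs, abs_of_nonneg (hp0 p)]
      refine mul_le_mul_of_nonneg_right ?_ (hp0 p)
      have := hb p 1
      norm_num at this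
      exact this
    have hle := Summable.tsum_le_tsum (f := fun p : Nat.Primes =>
        12 * (if TA p then ((p : ℕ) : ℝ) ^ (-s) else 0) +
        3 * (if TC p then ((p : ℕ) : ℝ) ^ (-s) else 0) +
        2 * (if TD p then ((p : ℕ) : ℝ) ^ (-s) else 0) -
        (if ¬ (p : ℕ) ∣ Q' ∧ (p : ℕ) % 3 = 1 then u p ^ 2 + u' p ^ 2 else 0) *
          ((p : ℕ) : ℝ) ^ (-s)) (fun p => ?_)
      ((((sA.mul_left 12).add (sC.mul_left 3)).add (sD.mul_left 2)).sub sw) sL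
    · rw [(((sA.mul_left 12).add (sC.mul_left 3)).add (sD.mul_left 2)).tsum_sub sw,
        ((sA.mul_left 12).add (sC.mul_left 3)).tsum_add (sD.mul_left 2),
        (sA.mul_left 12).tsum_add (sC.mul_left 3), tsum_mul_left, tsum_mul_left,
        tsum_mul_left] at hle
      have a1 := hCA s hs1 hs2
      have a2 := hCC s hs1 hs2
      have a3 := hCD s hs1 hs2
      have a4 := hC2 s hs1 hs2
      have hlog := log_nonneg' hs1 hs2
      linarith
    · -- pointwise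
      by_cases hpQ : (p : ℕ) ∣ Q'
      · rw [if_neg (fun h => (hA p p.2 h).1 hpQ), if_neg (fun h => (hC p p.2 h).1 hpQ),
          if_neg (fun h => (hD p p.2 h).1 hpQ), if_neg (fun h => h.1 hpQ), hbad p p.2 hpQ]
        simp
      · have hr : (p : ℕ) % 3 = 1 ∨ (p : ℕ) % 3 = 2 := by
          have h3 : ¬ 3 ∣ (p : ℕ) := fun h => by
            have := (Nat.prime_dvd_prime_iff_eq Nat.prime_three p.2).mp h
            exact hpQ (this ▸ h3Q)
          omega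
        have h4 := pointwise_types (u := u p) (u' := u' p) (A := TA p) (C := TC p) (D := TD p)
          (r := (p : ℕ) % 3) (c := loc p 1)
          (w := if (p : ℕ) % 3 = 1 then u p ^ 2 + u' p ^ 2 else 0) rfl
          (fun h => (hA p p.2 h).2) (fun h => (hC p p.2 h).2) (fun h => (hD p p.2 h).2)
          (hD' p p.2 hpQ) (hloc1 p p.2 hpQ) (hloc2 p p.2 hpQ) hr
        have h5 := mul_le_mul_of_nonneg_right h4 (hp0 p)
        have h6 : (if ¬ (p : ℕ) ∣ Q' ∧ (p : ℕ) % 3 = 1 then u p ^ 2 + u' p ^ 2 else 0) =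
            if (p : ℕ) % 3 = 1 then u p ^ 2 + u' p ^ 2 else 0 := by
          simp [hpQ]
        rw [h6]
        refine le_trans (le_of_eq ?_) h5
        by_cases b1 : TA p <;> by_cases b2 : TC p <;> by_cases b3 : TD p <;>
          simp only [b1, b2, b3, if_true, if_false] <;> ring
  -- conclusion
  set K := 12 * CA + 3 * CC + 2 * CD + C2 + 51 * ∑' p : Nat.Primes, ((p : ℕ) : ℝ) ^ (-2 : ℝ)
    with hK
  have hfin : ∀ s : ℝ, 1 < s → s ≤ 2 →
      Real.log (1 / (s - 1)) ≤ 100 / 83 * (Real.log (|B| + 1) + K) := by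
    intro s hs1 hs2
    have e1 := exp_le_tsum_Lam h0 hb hs hs1
    have e2 := (le_abs_self _).trans (hB s hs1 hs2)
    have e3 := e1.trans e2
    have e4 : Real.exp (∑' p : Nat.Primes, loc p 1 * ((p : ℕ) : ℝ) ^ (-s) -
      51 * ∑' p : Nat.Primes, ((p : ℕ) : ℝ) ^ (-2 : ℝ)) ≤ |B| + 1 := by
      linarith [le_abs_self B]
    have e5 := (Real.le_log_iff_exp_le (by positivity)).mpr e4
    have e6 := key s hs1 hs2
    linarith
  apply Cheb.not_bddNear_log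
  refine ⟨100 / 83 * (Real.log (|B| + 1) + K), fun s hs1 hs2 => ?_⟩
  rw [abs_of_nonneg (log_nonneg' hs1 hs2)]
  exact hfin s hs1 hs2

end Fermat.Agent.LT.Asai
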