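import Mathlib
import Fermat.Agent.LT.Asai.EisPrim
import Fermat.Agent.Petersson.Weight

/-!
# Unfolding on `Γ(M)\ℍ`
-/

set_option autoImplicit false

open MeasureTheory Filter Topology UpperHalfPlane Matrix.SpecialLinearGroup CongruenceSubgroup
open scoped MatrixGroups ENNReal

namespace Fermat.Agent.LT.Asai

/-- A weight function for a subgroup of `SL₂(ℤ)`. -/
structure IsWtS (Γ : Subgroup SL(2, ℤ)) (w : ℍ → ℝ≥0∞) : Prop where
  meas : Measurable w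
  sum_eq : ∀ z, ∑' γ : Γ, w ((γ : SL(2, ℤ)) • z) = 1
  lint : ∫⁻ z, w z < ⊤

theorem isWtS_wtG (Γ : Subgroup SL(2, ℤ)) [Γ.FiniteIndex] : IsWtS Γ (Petersson.wtG Γ) :=
  ⟨(Petersson.wtG_isWt Γ).meas, Petersson.tsum_wtG Γ, (Petersson.wtG_isWt Γ).lint⟩

section

variable {Γ : Subgroup SL(2, ℤ)} {w : ℍ → ℝ≥0∞}

theorem IsWtS.le_one (hw : IsWtS Γ w) (z : ℍ) : w z ≤ 1 := by
  rw [← hw.sum_eq z]
  have := ENNReal.le_tsum (f := fun γ : Γ => w ((γ : SL(2, ℤ)) • z)) 1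
  simpa using this

theorem IsWtS.ne_top (hw : IsWtS Γ w) (z : ℍ) : w z ≠ ⊤ :=
  ne_top_of_le_ne_top ENNReal.one_ne_top (hw.le_one z)

theorem measurePreserving_SL (g : SL(2, ℤ)) :
    MeasurePreserving (fun z : ℍ => g • z) (volume : Measure ℍ) volume :=
  measurePreserving_smul (mapGL ℝ g) (volume : Measure ℍ)

theorem measurable_SL (g : SL(2, ℤ)) : Measurable (fun z : ℍ => g • z) :=
  (measurePreserving_SL g).measurable

/-- Unfolding for nonnegative functions. -/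
theorem lintegral_unfold (hw : IsWtS Γ w) {f : ℍ → ℝ≥0∞} (hf : Measurable f) :
    ∫⁻ z, w z * ∑' γ : Γ, f ((γ : SL(2, ℤ)) • z) = ∫⁻ z, f z := by
  have hm : ∀ γ : Γ, Measurable fun z => w z * f ((γ : SL(2, ℤ)) • z) := fun γ =>
    hw.meas.mul (hf.comp (measurable_SL _))
  simp only [← ENNReal.tsum_mul_left]
  rw [lintegral_tsum fun γ => (hm γ).aemeasurable]
  have h1 : ∀ γ : Γ, ∫⁻ z, w z * f ((γ : SL(2, ℤ)) • z) =
      ∫⁻ z, w (((γ⁻¹ : Γ) : SL(2, ℤ)) • z) * f z := by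
    intro γ
    have h2 := (measurePreserving_SL (γ : SL(2, ℤ))).lintegral_comp
      (f := fun z => w (((γ⁻¹ : Γ) : SL(2, ℤ)) • z) * f z)
      ((hw.meas.comp (measurable_SL _)).mul hf)
    rw [← h2]
    refine lintegral_congr fun z => ?_
    simp only [smul_smul]
    simp
  simp only [h1]
  have h3 := (Equiv.inv Γ).tsum_eq (fun γ : Γ => ∫⁻ z, w ((γ : SL(2, ℤ)) • z) * f z)
  simp only [Equiv.inv_apply] at h3
  have hm2 : ∀ γ : Γ, Measurable fun z => w ((γ : SL(2, ℤ)) • z) * f z := fun γ =>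
    (hw.meas.comp (measurable_SL _)).mul hf
  rw [h3, ← lintegral_tsum fun γ => (hm2 γ).aemeasurable]
  refine lintegral_congr fun z => ?_
  rw [ENNReal.tsum_mul_right, hw.sum_eq, one_mul]

/-- Unfolding for integrable functions. -/
theorem integral_unfold (hw : IsWtS Γ w) {f : ℍ → ℂ} (hf : Measurable f)
    (hfin : ∫⁻ z, ‖f z‖ₑ ≠ ⊤) :
    ∫ z, ((w z).toReal : ℂ) * ∑' γ : Γ, f ((γ : SL(2, ℤ)) • z) = ∫ z, f z := by
  have hwm : ∀ g : SL(2, ℤ), Measurable fun z => ((w (g • z)).toReal : ℂ) := fun g =>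
    Complex.measurable_ofReal.comp ((hw.meas.comp (measurable_SL g)).ennreal_toReal)
  have hwm0 : Measurable fun z => ((w z).toReal : ℂ) :=
    Complex.measurable_ofReal.comp hw.meas.ennreal_toReal
  have hen : ∀ (z : ℍ) (a : ℂ), ‖((w z).toReal : ℂ) * a‖ₑ = w z * ‖a‖ₑ := by
    intro z a
    rw [enorm_mul]
    congr 1
    rw [← ofReal_norm, Complex.norm_real, Real.norm_of_nonneg ENNReal.toReal_nonneg,
      ENNReal.ofReal_toReal (hw.ne_top z)]
  have hm : ∀ γ : Γ, Measurable fun z => ((w z).toReal : ℂ) * f ((γ : SL(2, ℤ)) • z) := fun γ =>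
    hwm0.mul (hf.comp (measurable_SL _))
  have hm' : ∀ γ : Γ, Measurable fun z => ((w ((γ : SL(2, ℤ)) • z)).toReal : ℂ) * f z := fun γ =>
    (hwm _).mul hf
  have h1 : ∀ γ : Γ, ∫ z, ((w z).toReal : ℂ) * f ((γ : SL(2, ℤ)) • z) =
      ∫ z, ((w (((γ⁻¹ : Γ) : SL(2, ℤ)) • z)).toReal : ℂ) * f z := by
    intro γ
    have h2 := (measurePreserving_SL (γ : SL(2, ℤ))).integral_comp
      (g := fun z => ((w (((γ⁻¹ : Γ) : SL(2, ℤ)) • z)).toReal : ℂ) * f z)
      (MeasurableEquiv.smul (mapGL ℝ (γ : SL(2, ℤ)))).measurableEmbedding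
    rw [← h2]
    refine integral_congr_ae (Eventually.of_forall fun z => ?_)
    simp only [smul_smul]
    simp
  have hfin1 : ∑' γ : Γ, ∫⁻ z, ‖((w z).toReal : ℂ) * f ((γ : SL(2, ℤ)) • z)‖ₑ ≠ ⊤ := by
    rw [← lintegral_tsum fun γ => (hm γ).enorm.aemeasurable]
    simp only [hen]
    have h3 := lintegral_unfold hw (f := fun z => ‖f z‖ₑ) hf.enorm
    simp only [← ENNReal.tsum_mul_left] at h3
    rw [h3]
    exact hfin
  have hfin2 : ∑' γ : Γ, ∫⁻ z, ‖((w ((γ : SL(2, ℤ)) • z)).toReal : ℂ) * f z‖ₑ ≠ ⊤ := by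
    rw [← lintegral_tsum fun γ => (hm' γ).enorm.aemeasurable]
    have h3 : ∀ z, ∑' γ : Γ, ‖((w ((γ : SL(2, ℤ)) • z)).toReal : ℂ) * f z‖ₑ = ‖f z‖ₑ := by
      intro z
      have h4 : ∀ γ : Γ, ‖((w ((γ : SL(2, ℤ)) • z)).toReal : ℂ) * f z‖ₑ =
          w ((γ : SL(2, ℤ)) • z) * ‖f z‖ₑ := fun γ => hen _ _
      simp only [h4]
      rw [ENNReal.tsum_mul_right, hw.sum_eq, one_mul]
    simp only [h3]
    exact hfin
  -- left hand side as a sum of integrals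
  have hL : ∫ z, ((w z).toReal : ℂ) * ∑' γ : Γ, f ((γ : SL(2, ℤ)) • z) =
      ∑' γ : Γ, ∫ z, ((w z).toReal : ℂ) * f ((γ : SL(2, ℤ)) • z) := by
    rw [← integral_tsum (fun γ => (hm γ).aestronglyMeasurable) hfin1]
    refine integral_congr_ae (Eventually.of_forall fun z => ?_)
    simp only
    rw [tsum_mul_left]
  have hR : ∫ z, f z = ∑' γ : Γ, ∫ z, ((w ((γ : SL(2, ℤ)) • z)).toReal : ℂ) * f z := by
    rw [← integral_tsum (fun γ => (hm' γ).aestronglyMeasurable) hfin2]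
    refine integral_congr_ae (Eventually.of_forall fun z => ?_)
    simp only
    rw [tsum_mul_right, ← Complex.ofReal_tsum,
      ← ENNReal.tsum_toReal_eq (fun γ => hw.ne_top _), hw.sum_eq z, ENNReal.toReal_one,
      Complex.ofReal_one, one_mul]
  rw [hL, hR]
  simp only [h1]
  have h3 := (Equiv.inv Γ).tsum_eq (fun γ : Γ => ∫ z, ((w ((γ : SL(2, ℤ)) • z)).toReal : ℂ) * f z)
  simp only [Equiv.inv_apply] at h3
  exact h3

end

end Fermat.Agent.LT.Asai
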